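/-
S55 / 35-GEN second seat (helper22): **the `res₂ ∘ tr₂ = 0` conjunct of `hsplit`** of
`GlobalInv91.SCFamily.exists_invCp` / `LimDesc99.D2.exists_invCp_V_fin` for helper99's CONCRETE
family `LimDesc99.D2.scFamV S V hV hS` (levels `Ω`, groups `H_Ω = V.map (resL Ω) = Gal(Ω/K)`,
modules `Res (Ωˣ ⟶ J_S(Ω) × I^S(Ω) ⟶ C_S(Ω))`).

* `tr₂_H2π`            : the transition map on the class of a cocycle;
* `toDS_p2_φ₂_ne_zero` : the support outside `S` of the ideal part does not grow under the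
  transition maps (`SCDatum.e_φ₂`, `mIncl = prodMapRep jIncl (DirectSum.lmap levelIncl)`);
* `res₂_tr₂_eq_zero`   : cocycle form — `hpow` only at the primes in the support of the chosen
  cocycle AT THE STARTING LEVEL (no circularity in the choice of the tower level);
* `exists_level_res₂_tr₂_eq_zero` : tower form — for `M ≥ M₀(x)` the inflated class dies on
  `H_j ⊓ ker χ_M` at EVERY level `Ω_j ⊇ ℚ_M` below `i`.
-/
import Mathlib
import Fermat.Agent.S55.DegSum22.D2Split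
import Fermat.Agent.S55.LimDesc99.SCAdapter
import Fermat.Agent.S55.CycloGlobal87.LocalDeg
import Fermat.Agent.S55.CycloGlobal87.IdealSplit

set_option autoImplicit false

namespace Fermat.Agent.S55.DegSum22.D2

open CategoryTheory groupCohomology Fermat.Agent.S55.Idele73
  Fermat.Agent.S55.GlobalInv91 Fermat.Agent.S55.CycloRecip37
  Fermat.Agent.S55.CycloRecip37.GSys Fermat.Agent.S55.CycloRecip37.DescendK
  Fermat.Agent.S55.Idele73.Basic Fermat.Agent.S55.Idele73.Local Fermat.Agent.S55.IdeleVal44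
  Fermat.Agent.S55.LimDesc99 Fermat.Agent.S55.LimDesc99.D2 Fermat.Agent.S55.Profin15
  Fermat.Agent.S55.CS79.FamilyCS Fermat.Agent.S55.CS79.LevelClass Fermat.Agent.S55.CD3

attribute [local instance] factPrimes44

variable (S : Finset Nat.Primes) (V : Subgroup GQ) (hV : IsOpenSub (globalLevels S) V)
  (hS : S.Nonempty)

/-- **(H1)** the transition map of the family on the class of a cocycle. -/
theorem tr₂_H2π {i j : LevV S V} (h : j ≤ i)
    (f : cocycles₂ ((scFamV S V hV hS).d i).Y.X₂) :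
    (SCDatum.tr₂ ((scFamV S V hV hS).mono h)).hom
        ((H2π ((scFamV S V hV hS).d i).Y.X₂).hom f) =
      (H2π ((scFamV S V hV hS).d j).Y.X₂).hom
        ((mapCocycles₂ (SCDatum.q ((scFamV S V hV hS).mono h))
          (SCDatum.φ₂ ((scFamV S V hV hS).mono h))).hom f) :=
  H2π_comp_map_apply _ _ f

/-- **(H2)** the support outside `S` of the ideal part does not grow under the transition maps. -/
theorem toDS_p2_φ₂_ne_zero {i j : LevV S V} (h : j ≤ i)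
    (z : ((scFamV S V hV hS).d i).Y.X₂) (ℓ : OutS S)
    (hne : dsRep.toDS (fun ℓ : OutS S => Zq j.1.1 ℓ.1.1)
      (prodRep.p2 (JS j.1.1 S) (IS j.1.1 S)
        ((SCDatum.φ₂ ((scFamV S V hV hS).mono h)).hom z)) ℓ ≠ 0) :
    dsRep.toDS (fun ℓ : OutS S => Zq i.1.1 ℓ.1.1)
      (prodRep.p2 (JS i.1.1 S) (IS i.1.1 S) z) ℓ ≠ 0 := by
  intro h0
  apply hne
  have e := SCDatum.e_φ₂ ((scFamV S V hV hS).mono h) z
  have e2 : iIncl S j.1.1 j.1.unr (prodRep.p2 (JS j.1.1 S) (IS j.1.1 S)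
        ((SCDatum.φ₂ ((scFamV S V hV hS).mono h)).hom z)) =
      iIncl S i.1.1 i.1.unr (prodRep.p2 (JS i.1.1 S) (IS i.1.1 S) z) := congrArg Prod.snd e
  have e3 := DFunLike.congr_fun e2 ℓ
  have e4 : Fermat.Agent.S55.CS79.Limit.levelIncl S ℓ.1.1 j.1.1 j.1.unr
        (Fermat.Agent.S55.CS79.DivLimit.trivZ ℓ.1.1)
        (dsRep.toDS (fun ℓ : OutS S => Zq j.1.1 ℓ.1.1) (prodRep.p2 (JS j.1.1 S) (IS j.1.1 S)
          ((SCDatum.φ₂ ((scFamV S V hV hS).mono h)).hom z)) ℓ) =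
      Fermat.Agent.S55.CS79.Limit.levelIncl S ℓ.1.1 i.1.1 i.1.unr
        (Fermat.Agent.S55.CS79.DivLimit.trivZ ℓ.1.1)
        (dsRep.toDS (fun ℓ : OutS S => Zq i.1.1 ℓ.1.1)
          (prodRep.p2 (JS i.1.1 S) (IS i.1.1 S) z) ℓ) := e3
  rw [h0] at e4
  have hz : Fermat.Agent.S55.CS79.Limit.levelIncl S ℓ.1.1 i.1.1 i.1.unr
      (Fermat.Agent.S55.CS79.DivLimit.trivZ ℓ.1.1) 0 = 0 := map_zero _
  have hz' : Fermat.Agent.S55.CS79.Limit.levelIncl S ℓ.1.1 j.1.1 j.1.unr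
      (Fermat.Agent.S55.CS79.DivLimit.trivZ ℓ.1.1) 0 = 0 := map_zero _
  exact (Fermat.Agent.S55.CS79.Limit.isInvDescent_levelIncl S ℓ.1.1 j.1.1 j.1.unr
    (Fermat.Agent.S55.CS79.DivLimit.trivZ ℓ.1.1)).inj (e4.trans (hz.trans hz'.symm))

variable {T : Type*} [AddCommGroup T]

/-- **(H3), cocycle form**: the transition of the class of `f` dies on `Z ≤ H_j` as soon as all
local degrees of `Z` at the primes of `S` are divisible by `n` (`hdeg`) and `hpow` holds at the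
primes outside `S` in the support of `f` — a finite set which depends on the STARTING level only. -/
theorem res₂_tr₂_eq_zero {i j : LevV S V} (h : j ≤ i)
    (I : ∀ q : InS S, GSys.Sys (EUnits q.1.1 j.1.1) T)
    (hinj : ∀ (q : InS S) (D : Subgroup (DE q.1.1 j.1.1))
      (f : DE q.1.1 j.1.1 × DE q.1.1 j.1.1 → EUnits q.1.1 j.1.1),
      IsCocOn (EUnits q.1.1 j.1.1) D f → (I q).S D f = 0 → IsCobOn (EUnits q.1.1 j.1.1) D f)
    (Z : Subgroup ↥(HV S V j)) (n : ℕ)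
    (f : cocycles₂ ((scFamV S V hV hS).d i).Y.X₂)
    (hx : n • (H2π ((scFamV S V hV hS).d i).Y.X₂).hom f = 0)
    (hdeg : ∀ (q : InS S) (x : GalL j.1.1),
      n ∣ (Mackey.twSub (jE q.1.1 j.1.1) (Z.map (HV S V j).subtype) x).relIndex
        (Mackey.twSub (jE q.1.1 j.1.1) (HV S V j) x))
    (hpow : ∀ ℓ : OutS S,
      (∃ p : HV S V i × HV S V i, dsRep.toDS (fun ℓ : OutS S => Zq i.1.1 ℓ.1.1)
        (prodRep.p2 (JS i.1.1 S) (IS i.1.1 S) (f.1 p)) ℓ ≠ 0) →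
      ∀ (s : ↥(Z.map (HV S V j).subtype)) (γ : GalL j.1.1),
        γ * s * γ⁻¹ ∈ (locHom ℓ.1.1 j.1.1).range →
        ∃ s' : HV S V j, γ * s' * γ⁻¹ ∈ (locHom ℓ.1.1 j.1.1).range ∧
          (s : GalL j.1.1) = (s' : GalL j.1.1) ^ n) :
    (res₂ ((scFamV S V hV hS).d j).Y.X₂ Z).hom
      ((SCDatum.tr₂ ((scFamV S V hV hS).mono h)).hom
        ((H2π ((scFamV S V hV hS).d i).Y.X₂).hom f)) = 0 := by
  have hfin : FiniteDimensional ℚ j.1.1 := j.1.unr.1
  have hn : n • (H2π ((scFamV S V hV hS).d j).Y.X₂).hom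
      ((mapCocycles₂ (SCDatum.q ((scFamV S V hV hS).mono h))
        (SCDatum.φ₂ ((scFamV S V hV hS).mono h))).hom f) = 0 := by
    rw [← tr₂_H2π S V hV hS h f, ← map_nsmul, hx, map_zero]
  rw [tr₂_H2π S V hV hS h f]
  have hpow' : ∀ ℓ : OutS S,
      (∃ p : HV S V j × HV S V j, dsRep.toDS (fun ℓ : OutS S => Zq j.1.1 ℓ.1.1)
        (prodRep.p2 (JS j.1.1 S) (IS j.1.1 S)
          (((mapCocycles₂ (SCDatum.q ((scFamV S V hV hS).mono h))
            (SCDatum.φ₂ ((scFamV S V hV hS).mono h))).hom f).1 p)) ℓ ≠ 0) →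
      ∀ (s : ↥(Z.map (HV S V j).subtype)) (γ : GalL j.1.1),
        γ * s * γ⁻¹ ∈ (locHom ℓ.1.1 j.1.1).range →
        ∃ s' : HV S V j, γ * s' * γ⁻¹ ∈ (locHom ℓ.1.1 j.1.1).range ∧
          (s : GalL j.1.1) = (s' : GalL j.1.1) ^ n := by
    rintro ℓ ⟨p, hp⟩
    refine hpow ℓ ⟨(SCDatum.q ((scFamV S V hV hS).mono h) p.1,
      SCDatum.q ((scFamV S V hV hS).mono h) p.2), ?_⟩
    exact toDS_p2_φ₂_ne_zero S V hV hS h _ ℓ hp
  exact res₂_H2π_JIS_eq_zero j.1.1 S I hinj (HV S V j) Z n _ hn hdeg hpow'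

open Fermat.Agent.S55.CycloGlobal87 Fermat.Agent.S55.CycloGlobal87.IdealSplit in
/-- **(H4), tower form = the `res₂`-conjunct of `hsplit`** for the family `scFamV`: for a
`p^n`-torsion class `x` at the level `i` there is `M₀` such that for every `M ≥ M₀` and EVERY level
`j ≤ i` containing `ℚ_M`, the transition of `x` dies on (any `Z ≤ H_j` whose image in `Gal(Ω_j/ℚ)`
is) `H_j ⊓ ker χ_M` — e.g. `Z = (towerCharK …).ker`, `hZ = CycloGlobal87.map_ker_towerCharK`. -/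
theorem exists_level_res₂_tr₂_eq_zero (p : ℕ) [Fact p.Prime] (hp2 : p ≠ 2)
    (i : LevV S V) (x : H2 ((scFamV S V hV hS).d i).Y.X₂) (n : ℕ) (hx : p ^ n • x = 0) :
    ∃ M₀, ∀ M ≥ M₀, ∀ (j : LevV S V) (h : j ≤ i) (hM : towerField p M ≤ j.1.1)
      (I : ∀ q : InS S, GSys.Sys (EUnits q.1.1 j.1.1) T)
      (_hinj : ∀ (q : InS S) (D : Subgroup (DE q.1.1 j.1.1))
        (f : DE q.1.1 j.1.1 × DE q.1.1 j.1.1 → EUnits q.1.1 j.1.1),
        IsCocOn (EUnits q.1.1 j.1.1) D f → (I q).S D f = 0 → IsCobOn (EUnits q.1.1 j.1.1) D f)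
      (Z : Subgroup ↥(HV S V j))
      (_hZ : Z.map (HV S V j).subtype = HV S V j ⊓ (towerCharL p j.1.1 hp2 M hM).ker),
      (res₂ ((scFamV S V hV hS).d j).Y.X₂ Z).hom
        ((SCDatum.tr₂ ((scFamV S V hV hS).mono h)).hom x) = 0 := by
  classical
  obtain ⟨f, hf⟩ : ∃ f : cocycles₂ ((scFamV S V hV hS).d i).Y.X₂,
      (H2π ((scFamV S V hV hS).d i).Y.X₂).hom f = x := by
    induction x using H2_induction_on with
    | h f => exact ⟨f, rfl⟩
  have hfini : FiniteDimensional ℚ i.1.1 := i.1.unr.1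
  -- the support outside `S` of the chosen cocycle
  obtain ⟨T₀, hT₀⟩ : ∃ T₀ : Finset Nat.Primes, ∀ ℓ : OutS S,
      (∃ p : HV S V i × HV S V i, dsRep.toDS (fun ℓ : OutS S => Zq i.1.1 ℓ.1.1)
        (prodRep.p2 (JS i.1.1 S) (IS i.1.1 S) (f.1 p)) ℓ ≠ 0) → ℓ.1 ∈ T₀ := by
    refine ⟨(finite_support_IS i.1.1 S (H := HV S V i) f.1).toFinset.image Subtype.val,
      fun ℓ hℓ => ?_⟩
    rw [Finset.mem_image]
    exact ⟨ℓ, (finite_support_IS i.1.1 S (H := HV S V i) f.1).mem_toFinset.2 hℓ, rfl⟩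
  -- the uniform levels
  obtain ⟨M₁, hM₁⟩ := exists_uniform_level
    (P := fun q M => ∀ (Ω : IntermediateField ℚ Qbar) [Normal ℚ Ω] [FiniteDimensional ℚ Ω]
      (h : towerField p M ≤ Ω) (H : Subgroup (GalL Ω)) (_hH : H.index < p ^ (V.index + 1))
      (x : GalL Ω),
      p ^ n ∣ (Mackey.twSub (jE q.1 Ω) (H ⊓ (towerCharL p Ω hp2 M h).ker) x).relIndex
        (Mackey.twSub (jE q.1 Ω) H x))
    (fun q => exists_level_pow_dvd_relIndex_twSub_jE p hp2 q.1 n V.index) S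
  have h2 := exists_level_hpow_finset p hp2 T₀ n V.index
  cases h2 with
  | intro M₂ hM₂ =>
    refine ⟨max M₁ M₂, fun M hM j h hMj I hinj Z hZ => ?_⟩
    have hfinj : FiniteDimensional ℚ j.1.1 := j.1.unr.1
    have hidx : (HV S V j).index < p ^ (V.index + 1) := by
      have e : (HV S V j).index = V.index :=
        Subgroup.index_map_eq V (resL_surjective j.1.1) j.2
      rw [e]
      exact lt_of_lt_of_le (Nat.lt_pow_self (Fact.out : p.Prime).one_lt)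
        (Nat.pow_le_pow_right (Fact.out : p.Prime).pos (Nat.le_succ _))
    rw [← hf] at hx ⊢
    refine res₂_tr₂_eq_zero S V hV hS h I hinj Z (p ^ n) f hx ?_ ?_
    · intro q x
      have key := hM₁ M (le_trans (le_max_left _ _) hM) q.1 q.2 j.1.1 hMj (HV S V j) hidx x
      rw [← hZ] at key
      exact key
    · intro ℓ hℓ s γ hs
      have hℓT : ℓ.1 ∈ T₀ := hT₀ ℓ hℓ
      have hunr : Fermat.Agent.S55.FrobFin98.IsUnrAt ℓ.1.1 j.1.1 :=
        Fermat.Agent.S55.FrobFin98.isUnrAt_of_isUnramifiedOutside ℓ.1.1 j.1.1 j.1.unr ℓ.2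
      have hs' : (s : GalL j.1.1) ∈ HV S V j ⊓ (towerCharL p j.1.1 hp2 M hMj).ker :=
        (SetLike.ext_iff.1 hZ _).1 s.2
      exact hM₂ M (le_trans (le_max_right _ _) hM) ℓ.1 hℓT j.1.1 hMj (HV S V j) hidx
        (Fermat.Agent.S55.FrobFin98.isCyclic_range hunr) ⟨(s : GalL j.1.1), hs'⟩ γ hs

open Fermat.Agent.S55.CycloGlobal87 in
/-- **the `res₂`-conjunct of `hsplit` for `χ := OverK.towerCharK`** (the onto tower character of
`K = Ω_j^{H_j}`, helper87): literal shape of `LimDesc99.D2.exists_invCp_V_fin.hsplit`. -/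
theorem exists_level_res₂_tr₂_towerCharK (p : ℕ) [Fact p.Prime] (hp2 : p ≠ 2)
    (i : LevV S V) (x : H2 ((scFamV S V hV hS).d i).Y.X₂) (n : ℕ) (hx : p ^ n • x = 0) :
    ∃ M₀, ∀ (j' m : ℕ), M₀ ≤ j' + m → ∀ (j : LevV S V) (h : j ≤ i)
      (hM : towerField p (j' + m) ≤ j.1.1)
      (hj : ∀ g ∈ HV S V j, towerCharL p j.1.1 hp2 j'
        ((towerField_mono p (Nat.le_add_right j' m)).trans hM) g = 1)
      (I : ∀ q : InS S, GSys.Sys (EUnits q.1.1 j.1.1) T)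
      (_hinj : ∀ (q : InS S) (D : Subgroup (DE q.1.1 j.1.1))
        (f : DE q.1.1 j.1.1 × DE q.1.1 j.1.1 → EUnits q.1.1 j.1.1),
        IsCocOn (EUnits q.1.1 j.1.1) D f → (I q).S D f = 0 → IsCobOn (EUnits q.1.1 j.1.1) D f),
      (res₂ ((scFamV S V hV hS).d j).Y.X₂
          (towerCharK p hp2 j.1.1 (HV S V j) j' m hM hj).ker).hom
        ((SCDatum.tr₂ ((scFamV S V hV hS).mono h)).hom x) = 0 := by
  have h0 := exists_level_res₂_tr₂_eq_zero (T := T) S V hV hS p hp2 i x n hx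
  cases h0 with
  | intro M₀ hM₀ =>
    exact ⟨M₀, fun j' m hle j h hM hj I hinj =>
      hM₀ (j' + m) hle j h hM I hinj _ (map_ker_towerCharK p hp2 j.1.1 (HV S V j) j' m hM hj)⟩

end Fermat.Agent.S55.DegSum22.D2
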