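/-
S55 / 35-GEN second seat (helper22): from a `SumSystem` on `M : Rep k 𝔊` to the LITERAL `J`-side
binders (`invJ`, `invJN`, `hJ1`) of helper91's `GlobalInv91.exists_fundamental_class_of_inv` and
`GlobalInv91.alpha_trans`, for the ambient group `↥H`, `H ≤ 𝔊`.
Mathlib + CycloRecip37.{DescendK, SysMore (H2descAdd)} + GlobalInv91.{Tower, DoubleQuot}.

`Sys : SumSystem M T` (helper37's shape: `S H f`, additive on cocycles, zero on coboundaries,
`S H' (res f) = [H : H'] • S H f`).  `J := Rep.res H.subtype M`.

* `toH2 Sys H : H²(H, M) →+ T`, `toH2_H2π`;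
* `toH2Sub Sys H U : H²(U, J) →+ T` for `U : Subgroup ↥H`;
  **`toH2Sub_res₂ : toH2Sub Sys H U (res₂ J U y) = U.index • toH2 Sys H y`**;
* layers: `invL Sys H V := toH2 ∘ infl₂ : H²(H ⧸ V, J^V) →+ T`,
  `invLN Sys H U V : H²(U ⧸ V, J^V) →+ T`,
  **`invLN_res₂ : invLN Sys H U V (res₂ (J^V) (subQ U V) y) = (subQ U V).index • invL Sys H V y`**,
  `invL_trans₂ : invL Sys H V (trans₂ J hVU x) = invL Sys H U x`.
-/
import Mathlib
import Fermat.Agent.S55.CycloRecip37.SysMore
import Fermat.Agent.S55.GlobalInv91.DoubleQuot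

set_option autoImplicit false

namespace Fermat.Agent.S55.DegSum22.JPackage

open CategoryTheory groupCohomology Fermat.Agent.S55.CycloRecip37.DescendK
  Fermat.Agent.S55.CycloRecip37.SysMore Fermat.Agent.S55.GlobalInv91

universe u

variable {k 𝔊 : Type u} [CommRing k] [Group 𝔊] {M : Rep.{u, u, u} k 𝔊}
  {T : Type*} [AddCommGroup T] (Sys : SumSystem M T)

/-! ### The additive maps on `H²` of the subgroups -/

/-- the additive functional on the cocycles of `H`. -/
noncomputable def cocHom (H : Subgroup 𝔊) : cocycles₂ (resH M H) →+ T where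
  toFun c := Sys.S H c.1
  map_zero' := Sys.zero H
  map_add' c c' := Sys.add H c.1 c'.1 c.2 c'.2

/-- **the invariant map `H²(H, M) →+ T` of a `SumSystem`.** -/
noncomputable def toH2 (H : Subgroup 𝔊) : H2 (resH M H) →+ T :=
  H2descAdd (resH M H) (cocHom Sys H) (fun c hc =>
    Sys.cob H c.1 ((isCob₂_iff_mem _ _).2 hc))

theorem toH2_H2π (H : Subgroup 𝔊) (c : cocycles₂ (resH M H)) :
    toH2 Sys H ((H2π (resH M H)).hom c) = Sys.S H c.1 :=
  H2descAdd_H2π (resH M H) _ _ c

/-! ### Subgroups of a subgroup -/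

variable (H : Subgroup 𝔊)

lemma mem_of_mem_map {U : Subgroup ↥H} {a : 𝔊} (ha : a ∈ U.map H.subtype) : a ∈ H := by
  obtain ⟨h, _, rfl⟩ := ha
  exact h.2

lemma mk_mem_of_mem_map {U : Subgroup ↥H} {a : 𝔊} (ha : a ∈ U.map H.subtype) :
    (⟨a, mem_of_mem_map H ha⟩ : ↥H) ∈ U := by
  obtain ⟨h, hU, rfl⟩ := ha
  exact hU

/-- `U.map H.subtype → U`, the inverse of the obvious bijection. -/
def down (U : Subgroup ↥H) : ↥(U.map H.subtype) →* ↥U where
  toFun a := ⟨⟨a.1, mem_of_mem_map H a.2⟩, mk_mem_of_mem_map H a.2⟩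
  map_one' := rfl
  map_mul' _ _ := rfl

lemma map_subtype_le (U : Subgroup ↥H) : U.map H.subtype ≤ H := fun _ ha => mem_of_mem_map H ha

/-- the identity of `M`, equivariant along `down`. -/
def downRep (U : Subgroup ↥H) :
    Rep.res (down H U) (Rep.res U.subtype (Rep.res H.subtype M)) ⟶
      Rep.res (U.map H.subtype).subtype M :=
  Rep.ofHom <| LinearMap.intertwiningMap_of_isIntertwiningMap
    (ρ := (Rep.res (down H U) (Rep.res U.subtype (Rep.res H.subtype M))).ρ)
    (σ := (Rep.res (U.map H.subtype).subtype M).ρ) LinearMap.id (fun _ _ => rfl)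

/-- the invariant map of a subgroup `U` of `↥H`. -/
noncomputable def toH2Sub (U : Subgroup ↥H) :
    H2 (Rep.res U.subtype (Rep.res H.subtype M)) →+ T :=
  (toH2 Sys (U.map H.subtype)).comp
    (groupCohomology.map (down H U) (downRep H U) 2).hom.toAddMonoidHom

lemma relIndex_map_subtype (U : Subgroup ↥H) : (U.map H.subtype).relIndex H = U.index := by
  rw [Subgroup.relIndex]
  congr 1
  ext x
  rw [Subgroup.mem_subgroupOf]
  constructor
  · intro hx
    have := mk_mem_of_mem_map H hx
    exact this
  · intro hx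
    exact ⟨x, hx, rfl⟩

/-- **(J1) in the ambient group `↥H`** = `hJ1` of `GlobalInv91.exists_fundamental_class_of_inv`. -/
theorem toH2Sub_res₂ (U : Subgroup ↥H) (y : H2 (Rep.res H.subtype M)) :
    toH2Sub Sys H U ((res₂ (Rep.res H.subtype M) U).hom y) = U.index • toH2 Sys H y := by
  induction y using H2_induction_on with
  | h f =>
    unfold toH2Sub
    rw [AddMonoidHom.comp_apply]
    have e1 : (res₂ (Rep.res H.subtype M) U).hom ((H2π (Rep.res H.subtype M)).hom f) =
        (H2π (Rep.res U.subtype (Rep.res H.subtype M))).hom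
          ((mapCocycles₂ U.subtype (𝟙 (Rep.res U.subtype (Rep.res H.subtype M)))).hom f) :=
      H2π_comp_map_apply U.subtype (𝟙 (Rep.res U.subtype (Rep.res H.subtype M))) f
    have e2 : ∀ g : cocycles₂ (Rep.res U.subtype (Rep.res H.subtype M)),
        (groupCohomology.map (down H U) (downRep H U) 2).hom
          ((H2π (Rep.res U.subtype (Rep.res H.subtype M))).hom g) =
        (H2π (Rep.res (U.map H.subtype).subtype M)).hom
          ((mapCocycles₂ (down H U) (downRep H U)).hom g) :=
      fun g => H2π_comp_map_apply (down H U) (downRep H U) g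
    erw [e1]
    change toH2 Sys (U.map H.subtype) ((groupCohomology.map (down H U) (downRep H U) 2).hom _) = _
    rw [e2]
    erw [toH2_H2π, toH2_H2π]
    rw [← relIndex_map_subtype H U]
    exact Sys.res (U.map H.subtype) H (map_subtype_le H U) f.1 f.2

/-! ### Layers -/

variable (V : Subgroup ↥H) [V.Normal]

/-- the invariant of the layer `H ⧸ V`: inflate, then take the invariant of `H`. -/
noncomputable def invL : H2 ((Rep.res H.subtype M).quotientToInvariants V) →+ T :=
  (toH2 Sys H).comp (infl₂ (Rep.res H.subtype M) V).hom.toAddMonoidHom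

lemma invL_apply (y : H2 ((Rep.res H.subtype M).quotientToInvariants V)) :
    invL Sys H V y = toH2 Sys H ((infl₂ (Rep.res H.subtype M) V).hom y) := rfl

variable (U : Subgroup ↥H)

/-- `U → U ⧸ V ⊆ H ⧸ V`. -/
def toSubQ : ↥U →* ↥(subQ U V) := (QuotientGroup.mk' V).subgroupMap U

/-- the inclusion `J^V → J`, equivariant along `U → U ⧸ V`. -/
noncomputable def inclL :
    Rep.res (toSubQ H V U) (Rep.res (subQ U V).subtype
      ((Rep.res H.subtype M).quotientToInvariants V)) ⟶
      Rep.res U.subtype (Rep.res H.subtype M) :=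
  Rep.ofHom <| LinearMap.intertwiningMap_of_isIntertwiningMap
    (ρ := (Rep.res (toSubQ H V U) (Rep.res (subQ U V).subtype
      ((Rep.res H.subtype M).quotientToInvariants V))).ρ)
    (σ := (Rep.res U.subtype (Rep.res H.subtype M)).ρ)
    (Submodule.subtype _) (fun _ _ => rfl)

/-- the invariant of the subgroup `U ⧸ V` of the layer `H ⧸ V`. -/
noncomputable def invLN :
    H2 (Rep.res (subQ U V).subtype ((Rep.res H.subtype M).quotientToInvariants V)) →+ T :=
  (toH2Sub Sys H U).comp
    (groupCohomology.map (toSubQ H V U) (inclL H V U) 2).hom.toAddMonoidHom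

/-- restriction to `U ⧸ V` then inflation to `U` is inflation to `H` then restriction to `U`. -/
theorem map_toSubQ_res₂ (y : H2 ((Rep.res H.subtype M).quotientToInvariants V)) :
    (groupCohomology.map (toSubQ H V U) (inclL H V U) 2).hom
        ((res₂ ((Rep.res H.subtype M).quotientToInvariants V) (subQ U V)).hom y) =
      (res₂ (Rep.res H.subtype M) U).hom ((infl₂ (Rep.res H.subtype M) V).hom y) := by
  induction y using H2_induction_on with
  | h f =>
    have e1 := H2π_comp_map_apply (subQ U V).subtype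
      (𝟙 (Rep.res (subQ U V).subtype ((Rep.res H.subtype M).quotientToInvariants V))) f
    have e2 := fun g : cocycles₂ (Rep.res (subQ U V).subtype
        ((Rep.res H.subtype M).quotientToInvariants V)) =>
      H2π_comp_map_apply (toSubQ H V U) (inclL H V U) g
    have e3 := H2π_comp_map_apply (QuotientGroup.mk' V)
      (Rep.ofHom <| (Rep.res H.subtype M).ρ.quotientToInvariants_lift V) f
    have e4 := fun g : cocycles₂ (Rep.res H.subtype M) => H2π_comp_map_apply U.subtype
      (𝟙 (Rep.res U.subtype (Rep.res H.subtype M))) g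
    erw [e1, e2, e3, e4]
    rfl

/-- **`hJ1` of `GlobalInv91.alpha_trans`, literally.** -/
theorem invLN_res₂ [U.Normal] (hVU : V ≤ U)
    (y : H2 ((Rep.res H.subtype M).quotientToInvariants V)) :
    invLN Sys H V U
        ((res₂ ((Rep.res H.subtype M).quotientToInvariants V) (subQ U V)).hom y) =
      (subQ U V).index • invL Sys H V y := by
  unfold invLN
  rw [AddMonoidHom.comp_apply]
  change toH2Sub Sys H U ((groupCohomology.map (toSubQ H V U) (inclL H V U) 2).hom _) = _
  rw [map_toSubQ_res₂, toH2Sub_res₂, invL_apply]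
  congr 1
  refine (Subgroup.index_map_eq _ (QuotientGroup.mk'_surjective V) ?_).symm
  rw [QuotientGroup.ker_mk']
  exact hVU

/-- **compatibility with helper91's transition maps**: `invL_V ∘ trans₂ = invL_U`. -/
theorem invL_trans₂ [U.Normal] (hVU : V ≤ U)
    (x : H2 ((Rep.res H.subtype M).quotientToInvariants U)) :
    invL Sys H V ((trans₂ (Rep.res H.subtype M) hVU).hom x) = invL Sys H U x := by
  rw [invL_apply, invL_apply]
  congr 1
  induction x using H2_induction_on with
  | h f =>
    have e1 := H2π_comp_map_apply (projQ hVU) (inclQ (Rep.res H.subtype M) hVU) f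
    have e2 := fun g : cocycles₂ ((Rep.res H.subtype M).quotientToInvariants V) =>
      H2π_comp_map_apply (QuotientGroup.mk' V)
        (Rep.ofHom <| (Rep.res H.subtype M).ρ.quotientToInvariants_lift V) g
    have e3 := H2π_comp_map_apply (QuotientGroup.mk' U)
      (Rep.ofHom <| (Rep.res H.subtype M).ρ.quotientToInvariants_lift U) f
    erw [e1, e2, e3]
    rfl

/-- the three `J`-side binders of `GlobalInv91.alpha_trans` (ambient group `↥H`), packaged. -/
theorem exists_invJ_package [U.Normal] (hVU : V ≤ U) :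
    ∃ (invJ : H2 ((Rep.res H.subtype M).quotientToInvariants V) →+ T)
      (invJN : H2 (Rep.res (subQ U V).subtype
        ((Rep.res H.subtype M).quotientToInvariants V)) →+ T),
      (∀ y : H2 ((Rep.res H.subtype M).quotientToInvariants V),
        invJN ((res₂ ((Rep.res H.subtype M).quotientToInvariants V) (subQ U V)).hom y) =
          (subQ U V).index • invJ y) ∧
      (∀ y, invJ y = toH2 Sys H ((infl₂ (Rep.res H.subtype M) V).hom y)) :=
  ⟨invL Sys H V, invLN Sys H V U, invLN_res₂ Sys H V U hVU, fun _ => rfl⟩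

end Fermat.Agent.S55.DegSum22.JPackage
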