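/-
S55 / 35-GEN second seat (helper22): the counting identity behind `∑_{w | v} [L_w : K_v] = [L : K]`
in double-coset form.  Mathlib + Idele73.Mackey (helper73: `twSub`, `InDC`, `IsRepr`) only.

`φ : Γ →* G`, `H' ≤ H ≤ G`, `G` finite, `R'` a system of representatives of `φ(Γ) \ G / H'`.  For
every `x : G`
`∑_{x' ∈ R', x' ∈ φ(Γ) x H} [Γ_{H,x'} : Γ_{H',x'}] = [H : H']`     (`sum_relIndex_twSub`),
where `Γ_{H,x} = twSub φ H x = {τ | x⁻¹ φ(τ) x ∈ H}`.
-/
import Mathlib
import Fermat.Agent.S55.Idele73.Mackey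

set_option autoImplicit false

namespace Fermat.Agent.S55.DegSum22

open Fermat.Agent.S55.Idele73

section abstract

variable {Γ : Type*} [Group Γ] {X' X : Type*} [MulAction Γ X'] [MulAction Γ X]

/-- **Orbit count over a fibration of finite `Γ`-sets.** -/
theorem sum_relIndex_stabilizer [Finite X'] [Finite X] (π : X' → X)
    (hπ : ∀ (τ : Γ) (y : X'), π (τ • y) = τ • π y)
    (n : ℕ) (hn : ∀ y : X, Nat.card {y' : X' // π y' = y} = n)
    {ι' : Type*} (R' : Finset ι') (r' : ι' → X')
    (hcov : ∀ y' : X', ∃ i ∈ R', y' ∈ MulAction.orbit Γ (r' i))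
    (huniq : ∀ i ∈ R', ∀ j ∈ R', r' j ∈ MulAction.orbit Γ (r' i) → i = j)
    (x : X) [DecidablePred fun i => π (r' i) ∈ MulAction.orbit Γ x] :
    ∑ i ∈ R'.filter (fun i => π (r' i) ∈ MulAction.orbit Γ x),
      (MulAction.stabilizer Γ (r' i)).relIndex (MulAction.stabilizer Γ (π (r' i))) = n := by
  classical
  have := Fintype.ofFinite X'
  have := Fintype.ofFinite X
  set O : Finset X := Finset.univ.filter (fun y => y ∈ MulAction.orbit Γ x) with hO
  set P : Finset X' := Finset.univ.filter (fun y' => π y' ∈ MulAction.orbit Γ x) with hP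
  set Rx : Finset ι' := R'.filter (fun i => π (r' i) ∈ MulAction.orbit Γ x) with hRx
  have hOpos : 0 < O.card :=
    Finset.card_pos.2 ⟨x, by simp [hO, MulAction.mem_orbit_self]⟩
  have hOcard : ∀ y : X, y ∈ MulAction.orbit Γ x →
      (MulAction.stabilizer Γ y).index = O.card := by
    intro y hy
    rw [MulAction.index_stabilizer, MulAction.orbit_eq_iff.2 hy, ← Set.ncard_coe_finset O]
    congr 1
    ext z
    simp [hO]
  -- first count of `P`
  have h1 : P.card = n * O.card := by
    rw [Finset.card_eq_sum_card_fiberwise (f := π) (s := P) (t := O)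
      (fun y' hy' => by simpa [hP, hO] using hy')]
    rw [Finset.sum_const_nat (m := n), mul_comm]
    intro y hy
    have hy' : y ∈ MulAction.orbit Γ x := by simpa [hO] using hy
    rw [← hn y, Nat.card_eq_fintype_card, Fintype.card_subtype]
    congr 1
    ext y'
    simp only [hP, Finset.mem_filter, Finset.mem_univ, true_and]
    constructor
    · rintro ⟨_, h⟩; exact h
    · intro h; exact ⟨h ▸ hy', h⟩
  -- second count of `P`
  let c' : X' → ι' := fun y' => (hcov y').choose
  have hc'R : ∀ y', c' y' ∈ R' := fun y' => (hcov y').choose_spec.1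
  have hc'orb : ∀ y', y' ∈ MulAction.orbit Γ (r' (c' y')) := fun y' => (hcov y').choose_spec.2
  have horbπ : ∀ y' z' : X', y' ∈ MulAction.orbit Γ z' → π y' ∈ MulAction.orbit Γ (π z') := by
    rintro y' z' ⟨τ, rfl⟩
    exact ⟨τ, (hπ τ z').symm⟩
  have h2 : P.card = ∑ i ∈ Rx, (MulAction.stabilizer Γ (r' i)).index := by
    rw [Finset.card_eq_sum_card_fiberwise (f := c') (s := P) (t := Rx)]
    · apply Finset.sum_congr rfl
      intro i hi
      have hiR : i ∈ R' := (Finset.mem_filter.1 hi).1
      have hix : π (r' i) ∈ MulAction.orbit Γ x := (Finset.mem_filter.1 hi).2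
      rw [MulAction.index_stabilizer, ← Set.ncard_coe_finset]
      congr 1
      ext y'
      simp only [hP, Finset.coe_filter, Finset.mem_filter, Finset.mem_univ, true_and,
        Set.mem_ofPred_eq]
      constructor
      · rintro ⟨_, h⟩
        rw [← h]; exact hc'orb y'
      · intro h
        refine ⟨?_, ?_⟩
        · have := horbπ y' (r' i) h
          rw [MulAction.orbit_eq_iff.2 hix] at this
          exact this
        · refine (huniq i hiR (c' y') (hc'R y') ?_).symm
          -- `r' (c' y')` and `r' i` lie in the orbit of `y'`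
          have h3 : r' (c' y') ∈ MulAction.orbit Γ y' :=
            MulAction.mem_orbit_symm.1 (hc'orb y')
          rw [MulAction.orbit_eq_iff.2 h] at h3
          exact h3
    · intro y' hy'
      have hy'' : π y' ∈ MulAction.orbit Γ x := by simpa [hP] using hy'
      refine Finset.mem_filter.2 ⟨hc'R y', ?_⟩
      have h3 : r' (c' y') ∈ MulAction.orbit Γ y' :=
        MulAction.mem_orbit_symm.1 (hc'orb y')
      have := horbπ _ _ h3
      rw [MulAction.orbit_eq_iff.2 hy''] at this
      exact this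
  -- compare
  have h3 : ∀ i ∈ Rx, (MulAction.stabilizer Γ (r' i)).index =
      (MulAction.stabilizer Γ (r' i)).relIndex (MulAction.stabilizer Γ (π (r' i))) * O.card := by
    intro i hi
    have hix : π (r' i) ∈ MulAction.orbit Γ x := (Finset.mem_filter.1 hi).2
    have hle : MulAction.stabilizer Γ (r' i) ≤ MulAction.stabilizer Γ (π (r' i)) := by
      intro τ hτ
      rw [MulAction.mem_stabilizer_iff] at hτ ⊢
      rw [← hπ, hτ]
    rw [← Subgroup.relIndex_mul_index hle, hOcard _ hix]
  rw [Finset.sum_congr rfl h3, ← Finset.sum_mul, h1] at h2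
  exact (Nat.eq_of_mul_eq_mul_right hOpos h2).symm

end abstract

section concrete

variable {Γ G : Type} [Group Γ] [Group G] (φ : Γ →* G)

/-- `Γ` acts on `G ⧸ H` through `φ`. -/
@[reducible] def actQ (H : Subgroup G) : MulAction Γ (G ⧸ H) := MulAction.compHom (G ⧸ H) φ

lemma mem_orbit_actQ_iff (H : Subgroup G) (x g : G) :
    (letI := actQ φ H; ((g : G) : G ⧸ H) ∈ MulAction.orbit Γ ((x : G) : G ⧸ H)) ↔
      Mackey.InDC φ H x g := by
  letI := actQ φ H
  constructor
  · rintro ⟨τ, hτ⟩
    have h1 : (((φ τ * x : G)) : G ⧸ H) = (g : G ⧸ H) := hτ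
    rw [QuotientGroup.eq] at h1
    exact ⟨τ, ⟨_, h1⟩, by simp [mul_assoc]⟩
  · rintro ⟨τ, h, rfl⟩
    refine ⟨τ, ?_⟩
    change (((φ τ * x : G)) : G ⧸ H) = ((φ τ * x * h : G) : G ⧸ H)
    rw [QuotientGroup.eq]
    have e : (φ τ * x)⁻¹ * (φ τ * x * (h : G)) = h := by group
    rw [e]; exact h.2

lemma stabilizer_actQ (H : Subgroup G) (x : G) :
    (letI := actQ φ H; MulAction.stabilizer Γ ((x : G) : G ⧸ H)) = Mackey.twSub φ H x := by
  letI := actQ φ H
  ext τ
  rw [MulAction.mem_stabilizer_iff, Mackey.mem_twSub]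
  change (((φ τ * x : G)) : G ⧸ H) = (x : G ⧸ H) ↔ _
  rw [eq_comm, QuotientGroup.eq]
  simp [mul_assoc]

lemma twSub_mono {H' H : Subgroup G} (h : H' ≤ H) (x : G) :
    Mackey.twSub φ H' x ≤ Mackey.twSub φ H x := fun _ hτ => h hτ

open Classical in
/-- **The degree count**: `∑_{x' ∈ R' ∩ φ(Γ) x H} [Γ_{H,x'} : Γ_{H',x'}] = [H : H']`. -/
theorem sum_relIndex_twSub [Finite G] {H' H : Subgroup G} (h : H' ≤ H) {R' : Finset G}
    (hR' : Mackey.IsRepr φ H' R') (x : G) :
    ∑ x' ∈ R'.filter (fun x' => Mackey.InDC φ H x x'),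
      (Mackey.twSub φ H' x').relIndex (Mackey.twSub φ H x') = H'.relIndex H := by
  letI := actQ φ H
  letI := actQ φ H'
  let e := Subgroup.quotientEquivProdOfLE h
  let π : G ⧸ H' → G ⧸ H := fun a => (e a).1
  have hπmk : ∀ g : G, π (g : G ⧸ H') = (g : G ⧸ H) := fun g => rfl
  have hπ : ∀ (τ : Γ) (y : G ⧸ H'), π (τ • y) = τ • π y := by
    intro τ y
    induction y using QuotientGroup.induction_on with
    | H g => rfl
  have hn : ∀ y : G ⧸ H, Nat.card {y' : G ⧸ H' // π y' = y} = H'.relIndex H := by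
    intro y
    rw [Subgroup.relIndex, Subgroup.index]
    apply Nat.card_congr
    refine (Equiv.subtypeEquiv e (p := fun y' => π y' = y) (q := fun p => p.1 = y)
      (fun a => Iff.rfl)).trans ?_
    exact
      { toFun := fun p => p.1.2
        invFun := fun f => ⟨(y, f), rfl⟩
        left_inv := by rintro ⟨⟨a, b⟩, rfl⟩; rfl
        right_inv := fun f => rfl }
  have key := sum_relIndex_stabilizer (Γ := Γ) π hπ (H'.relIndex H) hn R'
    (fun g : G => ((g : G) : G ⧸ H'))
    (by
      intro y'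
      induction y' using QuotientGroup.induction_on with
      | H g =>
        obtain ⟨x₀, hx₀, hg⟩ := hR'.1 g
        exact ⟨x₀, hx₀, (mem_orbit_actQ_iff φ H' x₀ g).2 hg⟩)
    (by
      intro i hi j hj hij
      exact hR'.2 i hi j hj ((mem_orbit_actQ_iff φ H' i j).1 hij))
    ((x : G) : G ⧸ H)
  rw [← key]
  apply Finset.sum_congr
  · ext x'
    simp only [Finset.mem_filter]
    rw [hπmk, mem_orbit_actQ_iff]
  · intro x' _
    rw [hπmk, stabilizer_actQ, stabilizer_actQ]

end concrete

end Fermat.Agent.S55.DegSum22
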