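/-
S55 / 35-GEN second seat (helper22): conjugation–restriction maps on `H²` of subgroups and the
triviality of inner automorphisms on `H²`.  Mathlib only.

`Γ` a group, `A : Rep k Γ`, `D' D ≤ Γ`, `σ : Γ` with `σ⁻¹ D' σ ≤ D`:
`cjMap A D' D σ h : H²(D, A) → H²(D', A)`, on cocycles `(σ_* f)(τ₁, τ₂) = σ • f (σ⁻¹ τ₁ σ, σ⁻¹ τ₂ σ)`.
`rsMap A h : H²(D, A) → H²(D', A)` the restriction for `D' ≤ D`.

* `cjMap_of_mem` : for `σ ∈ D` (so `D' = D`), `cjMap A D D σ _ = id`  (inner automorphisms act trivially);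
* `cjMap_one` : `cjMap A D' D 1 _ = rsMap A _`;
* `rsMap_rsMap`, `rsMap_self`.
-/
import Mathlib

set_option autoImplicit false

namespace Fermat.Agent.S55.DegSum22

open CategoryTheory groupCohomology

variable {k : Type} [CommRing k] {Γ : Type} [Group Γ]

/-- `τ ↦ σ⁻¹ * τ * σ` as a homomorphism `D' →* D`, when `σ⁻¹ D' σ ≤ D`. -/
def cjHom (D' D : Subgroup Γ) (σ : Γ) (h : ∀ τ ∈ D', σ⁻¹ * τ * σ ∈ D) : D' →* D where
  toFun τ := ⟨σ⁻¹ * τ * σ, h τ τ.2⟩
  map_one' := by ext; simp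
  map_mul' a b := by ext; simp [mul_assoc]

@[simp] lemma coe_cjHom (D' D : Subgroup Γ) (σ : Γ) (h : ∀ τ ∈ D', σ⁻¹ * τ * σ ∈ D) (τ : D') :
    ((cjHom D' D σ h τ : D) : Γ) = σ⁻¹ * τ * σ := rfl

variable (A : Rep.{0} k Γ)

/-- `a ↦ σ • a`, intertwining the `σ`-twisted action of `D'` with the action of `D'`. -/
def cjRep (D' D : Subgroup Γ) (σ : Γ) (h : ∀ τ ∈ D', σ⁻¹ * τ * σ ∈ D) :
    Rep.res (cjHom D' D σ h) (Rep.res D.subtype A) ⟶ Rep.res D'.subtype A :=
  Rep.ofHom <| LinearMap.intertwiningMap_of_isIntertwiningMap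
    (ρ := (Rep.res (cjHom D' D σ h) (Rep.res D.subtype A)).ρ) (σ := (Rep.res D'.subtype A).ρ)
    (A.ρ σ) (fun τ a => by
      change A.ρ σ (A.ρ (σ⁻¹ * τ * σ) a) = A.ρ τ (A.ρ σ a)
      rw [← Module.End.mul_apply, ← map_mul, ← Module.End.mul_apply, ← map_mul]
      congr 2; group)

/-- conjugation–restriction `H²(D, A) → H²(D', A)`; on cocycles
`(σ_* f)(τ₁, τ₂) = σ • f (σ⁻¹ τ₁ σ, σ⁻¹ τ₂ σ)`. -/
noncomputable def cjMap (D' D : Subgroup Γ) (σ : Γ) (h : ∀ τ ∈ D', σ⁻¹ * τ * σ ∈ D) :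
    H2 (Rep.res D.subtype A) →ₗ[k] H2 (Rep.res D'.subtype A) :=
  (groupCohomology.map (cjHom D' D σ h) (cjRep A D' D σ h) 2).hom

/-- the identity of `A`, as a morphism from the iterated restriction (definitionally `𝟙`). -/
def rsRep {D' D : Subgroup Γ} (h : D' ≤ D) :
    Rep.res (Subgroup.inclusion h) (Rep.res D.subtype A) ⟶ Rep.res D'.subtype A :=
  𝟙 (Rep.res D'.subtype A)

/-- restriction `H²(D, A) → H²(D', A)` for `D' ≤ D`. -/
noncomputable def rsMap {D' D : Subgroup Γ} (h : D' ≤ D) :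
    H2 (Rep.res D.subtype A) →ₗ[k] H2 (Rep.res D'.subtype A) :=
  (groupCohomology.map (Subgroup.inclusion h) (rsRep A h) 2).hom

/-- the conjugated cocycle. -/
noncomputable def cjCocycle (D' D : Subgroup Γ) (σ : Γ) (h : ∀ τ ∈ D', σ⁻¹ * τ * σ ∈ D)
    (f : cocycles₂ (Rep.res D.subtype A)) : cocycles₂ (Rep.res D'.subtype A) :=
  (mapCocycles₂ (cjHom D' D σ h) (cjRep A D' D σ h)).hom f

lemma cjCocycle_apply (D' D : Subgroup Γ) (σ : Γ) (h : ∀ τ ∈ D', σ⁻¹ * τ * σ ∈ D)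
    (f : cocycles₂ (Rep.res D.subtype A)) (τ₁ τ₂ : D') :
    (cjCocycle A D' D σ h f) (τ₁, τ₂) =
      A.ρ σ (f (cjHom D' D σ h τ₁, cjHom D' D σ h τ₂)) := rfl

theorem cjMap_H2π (D' D : Subgroup Γ) (σ : Γ) (h : ∀ τ ∈ D', σ⁻¹ * τ * σ ∈ D)
    (f : cocycles₂ (Rep.res D.subtype A)) :
    cjMap A D' D σ h ((H2π (Rep.res D.subtype A)).hom f) =
      (H2π (Rep.res D'.subtype A)).hom (cjCocycle A D' D σ h f) := by
  unfold cjMap cjCocycle
  exact H2π_comp_map_apply (cjHom D' D σ h) (cjRep A D' D σ h) f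

/-- the restricted cocycle. -/
noncomputable def rsCocycle {D' D : Subgroup Γ} (h : D' ≤ D)
    (f : cocycles₂ (Rep.res D.subtype A)) : cocycles₂ (Rep.res D'.subtype A) :=
  (mapCocycles₂ (Subgroup.inclusion h) (rsRep A h)).hom f

lemma rsCocycle_apply {D' D : Subgroup Γ} (h : D' ≤ D)
    (f : cocycles₂ (Rep.res D.subtype A)) (τ₁ τ₂ : D') :
    (rsCocycle A h f) (τ₁, τ₂) = f (Subgroup.inclusion h τ₁, Subgroup.inclusion h τ₂) := rfl

theorem rsMap_H2π {D' D : Subgroup Γ} (h : D' ≤ D) (f : cocycles₂ (Rep.res D.subtype A)) :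
    rsMap A h ((H2π (Rep.res D.subtype A)).hom f) =
      (H2π (Rep.res D'.subtype A)).hom (rsCocycle A h f) := by
  unfold rsMap rsCocycle
  exact H2π_comp_map_apply (Subgroup.inclusion h) (rsRep A h) f

/-- two cocycles which agree pointwise have the same class. -/
lemma H2π_congr {G : Type} [Group G] {M : Rep.{0} k G} (f g : cocycles₂ M)
    (h : ∀ x y : G, f (x, y) = g (x, y)) : (H2π M).hom f = (H2π M).hom g := by
  have : f = g := Subtype.ext (funext fun ⟨x, y⟩ => h x y)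
  exact congrArg _ this

theorem cjMap_one {D' D : Subgroup Γ} (h : ∀ τ ∈ D', (1 : Γ)⁻¹ * τ * 1 ∈ D)
    (c : H2 (Rep.res D.subtype A)) :
    cjMap A D' D 1 h c = rsMap A (fun τ hτ => by simpa using h τ hτ) c := by
  induction c using H2_induction_on with
  | h f =>
    rw [cjMap_H2π, rsMap_H2π]
    apply H2π_congr
    intro τ₁ τ₂
    rw [cjCocycle_apply, rsCocycle_apply, map_one]
    change f (_, _) = f (_, _)
    congr 2 <;> exact Subtype.ext (by simp)

theorem rsMap_self (D : Subgroup Γ) (c : H2 (Rep.res D.subtype A)) :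
    rsMap A (le_refl D) c = c := by
  induction c using H2_induction_on with
  | h f =>
    rw [rsMap_H2π]
    apply H2π_congr
    intro τ₁ τ₂
    rfl

theorem rsMap_rsMap {D'' D' D : Subgroup Γ} (h' : D'' ≤ D') (h : D' ≤ D)
    (c : H2 (Rep.res D.subtype A)) :
    rsMap A h' (rsMap A h c) = rsMap A (h'.trans h) c := by
  induction c using H2_induction_on with
  | h f =>
    rw [rsMap_H2π, rsMap_H2π, rsMap_H2π]
    apply H2π_congr
    intro τ₁ τ₂
    rfl

/-- **Inner automorphisms act trivially on `H²`.** -/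
theorem cjMap_of_mem (D : Subgroup Γ) (σ : Γ) (hσ : σ ∈ D) (h : ∀ τ ∈ D, σ⁻¹ * τ * σ ∈ D)
    (c : H2 (Rep.res D.subtype A)) : cjMap A D D σ h c = c := by
  induction c using H2_induction_on with
  | h f =>
    rw [cjMap_H2π]
    erw [H2π_eq_iff]
    -- the explicit homotopy `b y = f (σ, σ⁻¹ y σ) - f (y, σ)`
    let s : D := ⟨σ, hσ⟩
    have hs : ∀ y : D, s * cjHom D D σ h y = y * s := by
      intro y
      apply Subtype.ext
      simp [s, mul_assoc]
    refine ⟨fun y => f (s, cjHom D D σ h y) - f (y, s), ?_⟩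
    funext ⟨y, z⟩
    rw [d₁₂_hom_apply]
    have hc := (mem_cocycles₂_iff (A := Rep.res D.subtype A) f).1 f.2
    have h1 := hc y z s
    have h2 := hc y s (cjHom D D σ h z)
    have h3 := hc s (cjHom D D σ h y) (cjHom D D σ h z)
    rw [hs y] at h3
    rw [hs z] at h2
    have e : (cjCocycle A D D σ h f) (y, z) =
        (Rep.res D.subtype A).ρ s (f (cjHom D D σ h y, cjHom D D σ h z)) := rfl
    change _ = (cjCocycle A D D σ h f) (y, z) - f (y, z)
    rw [e, map_sub, map_mul]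
    linear_combination (norm := abel) h1 - h2 + h3

end Fermat.Agent.S55.DegSum22
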