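/-
S55 / 35-GEN second seat (helper22): the explicit "component at `x`" maps on `H²` of a coinduced
module, and their behaviour under restriction, change of representative and conjugation.
Mathlib + Idele73.Mackey (helper73) + DegSum22.Inner.

`φ : Γ →* G`, `A : Rep k Γ`, `J = Rep.coind φ A`, `H ≤ G`, `x : G`,
`Γ_x = twSub φ H x = {τ | x⁻¹ φ(τ) x ∈ H}`, `φ_x = twHom φ H x : Γ_x →* H`.
`sh φ A H x : H²(H, J) → H²(Γ_x, A)`, on cocycles `(sh f)(τ₁, τ₂) = f (φ_x τ₁, φ_x τ₂) (x)`
(= restriction along `φ_x` followed by evaluation at `x`; the `x`-component of Shapiro–Mackey).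

* `sh_rsMap`   : `sh_{H',x} (res^H_{H'} c) = res (sh_{H,x} c)`;
* `sh_mul`     : `sh_{H, φ(σ) x h} c = σ_* (sh_{H,x} c)`  (`σ ∈ Γ`, `h ∈ H`);
* `sh_cjMap`   : for `N ⊴ G`, `σ ∈ G`: `sh_{N,x} (σ_* c) = res (sh_{N, xσ} c)`.
-/
import Mathlib
import Fermat.Agent.S55.Idele73.Mackey
import Fermat.Agent.S55.DegSum22.Inner

set_option autoImplicit false

namespace Fermat.Agent.S55.DegSum22

open CategoryTheory groupCohomology Fermat.Agent.S55.Idele73

variable {k : Type} [CommRing k] {Γ G : Type} [Group Γ] [Group G] (φ : Γ →* G) (A : Rep.{0} k Γ)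

/-- evaluation at `x`, intertwining the `φ_x`-twisted action of `Γ_x` on `J` with `A`. -/
noncomputable def evRep (H : Subgroup G) (x : G) :
    Rep.res (Mackey.twHom φ H x) (Rep.res H.subtype (Rep.coind φ A)) ⟶
      Rep.res (Mackey.twSub φ H x).subtype A :=
  Rep.ofHom <| LinearMap.intertwiningMap_of_isIntertwiningMap
    (ρ := (Rep.res (Mackey.twHom φ H x) (Rep.res H.subtype (Rep.coind φ A))).ρ)
    (σ := (Rep.res (Mackey.twSub φ H x).subtype A).ρ)
    { toFun := fun f => f.1 x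
      map_add' := fun _ _ => rfl
      map_smul' := fun _ _ => rfl }
    (fun τ f => by
      change f.1 (x * (x⁻¹ * φ (τ : Γ) * x)) = A.ρ (τ : Γ) (f.1 x)
      rw [show x * (x⁻¹ * φ (τ : Γ) * x) = φ (τ : Γ) * x by group]
      exact f.2 (τ : Γ) x)

/-- the `x`-component `H²(H, J) → H²(Γ_x, A)`. -/
noncomputable def sh (H : Subgroup G) (x : G) :
    H2 (Rep.res H.subtype (Rep.coind φ A)) →ₗ[k] H2 (Rep.res (Mackey.twSub φ H x).subtype A) :=
  (groupCohomology.map (Mackey.twHom φ H x) (evRep φ A H x) 2).hom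

/-- the `x`-component on cocycles. -/
noncomputable def shCocycle (H : Subgroup G) (x : G)
    (f : cocycles₂ (Rep.res H.subtype (Rep.coind φ A))) :
    cocycles₂ (Rep.res (Mackey.twSub φ H x).subtype A) :=
  (mapCocycles₂ (Mackey.twHom φ H x) (evRep φ A H x)).hom f

lemma shCocycle_apply (H : Subgroup G) (x : G)
    (f : cocycles₂ (Rep.res H.subtype (Rep.coind φ A))) (τ₁ τ₂ : Mackey.twSub φ H x) :
    (shCocycle φ A H x f) (τ₁, τ₂) =
      (f (Mackey.twHom φ H x τ₁, Mackey.twHom φ H x τ₂)).1 x := rfl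

theorem sh_H2π (H : Subgroup G) (x : G) (f : cocycles₂ (Rep.res H.subtype (Rep.coind φ A))) :
    sh φ A H x ((H2π (Rep.res H.subtype (Rep.coind φ A))).hom f) =
      (H2π (Rep.res (Mackey.twSub φ H x).subtype A)).hom (shCocycle φ A H x f) := by
  unfold sh shCocycle
  exact H2π_comp_map_apply (Mackey.twHom φ H x) (evRep φ A H x) f

lemma twSub_le {H' H : Subgroup G} (h : H' ≤ H) (x : G) :
    Mackey.twSub φ H' x ≤ Mackey.twSub φ H x := fun _ hτ => h hτ

/-- **(a)** the components commute with restriction. -/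
theorem sh_rsMap {H' H : Subgroup G} (h : H' ≤ H) (x : G)
    (c : H2 (Rep.res H.subtype (Rep.coind φ A))) :
    sh φ A H' x (rsMap (Rep.coind φ A) h c) = rsMap A (twSub_le φ h x) (sh φ A H x c) := by
  induction c using H2_induction_on with
  | h f =>
    rw [rsMap_H2π, sh_H2π, sh_H2π, rsMap_H2π]
    apply H2π_congr
    intro τ₁ τ₂
    rfl

lemma mem_twSub_mul_iff (H : Subgroup G) (x : G) (σ : Γ) (h : H) (τ : Γ) :
    τ ∈ Mackey.twSub φ H (φ σ * x * h) ↔ σ⁻¹ * τ * σ ∈ Mackey.twSub φ H x := by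
  rw [Mackey.mem_twSub, Mackey.mem_twSub]
  have e : (φ σ * x * (h : G))⁻¹ * φ τ * (φ σ * x * h) =
      (h : G)⁻¹ * (x⁻¹ * φ (σ⁻¹ * τ * σ) * x) * h := by
    simp only [map_mul, map_inv]; group
  rw [e]
  constructor
  · intro hm
    have := H.mul_mem (H.mul_mem h.2 hm) (H.inv_mem h.2)
    convert this using 1
    group
  · intro hm
    exact H.mul_mem (H.mul_mem (H.inv_mem h.2) hm) h.2

/-- **(b)** change of representative in the double coset `φ(Γ) x H`. -/
theorem sh_mul (H : Subgroup G) (x : G) (σ : Γ) (h : H)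
    (c : H2 (Rep.res H.subtype (Rep.coind φ A))) :
    sh φ A H (φ σ * x * h) c =
      cjMap A (Mackey.twSub φ H (φ σ * x * h)) (Mackey.twSub φ H x) σ
        (fun τ hτ => (mem_twSub_mul_iff φ H x σ h τ).1 hτ) (sh φ A H x c) := by
  have hh : ∀ y ∈ H, (h : G)⁻¹ * y * h ∈ H := fun y hy =>
    H.mul_mem (H.mul_mem (H.inv_mem h.2) hy) h.2
  -- inner automorphisms of `H` act trivially
  conv_rhs => rw [← cjMap_of_mem (Rep.coind φ A) H (h : G) h.2 hh c]
  induction c using H2_induction_on with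
  | h f =>
    rw [cjMap_H2π, sh_H2π, sh_H2π, cjMap_H2π]
    apply H2π_congr
    intro τ₁ τ₂
    rw [shCocycle_apply, cjCocycle_apply, shCocycle_apply]
    have key : ∀ τ : Mackey.twSub φ H (φ σ * x * h),
        cjHom H H (h : G) hh (Mackey.twHom φ H x
          (cjHom (Mackey.twSub φ H (φ σ * x * h)) (Mackey.twSub φ H x) σ
            (fun τ hτ => (mem_twSub_mul_iff φ H x σ h τ).1 hτ) τ)) =
          Mackey.twHom φ H (φ σ * x * h) τ := by
      intro τ
      apply Subtype.ext
      simp only [coe_cjHom, Mackey.coe_twHom, map_mul, map_inv]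
      group
    rw [cjCocycle_apply, key τ₁, key τ₂]
    set m := f (Mackey.twHom φ H (φ σ * x * h) τ₁, Mackey.twHom φ H (φ σ * x * h) τ₂) with hm
    change (m : (Rep.coind φ A).V).1 (φ σ * x * h) = A.ρ σ (((Rep.coind φ A).ρ (h : G) m).1 x)
    have h1 : ((Rep.coind φ A).ρ (h : G) m).1 x = (m : (Rep.coind φ A).V).1 (x * h) := rfl
    rw [h1, mul_assoc]
    exact (m : (Rep.coind φ A).V).2 σ (x * h)

lemma twSub_mul_right_of_normal (N : Subgroup G) [hN : N.Normal] (x σ : G) :
    Mackey.twSub φ N (x * σ) = Mackey.twSub φ N x := by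
  ext τ
  rw [Mackey.mem_twSub, Mackey.mem_twSub]
  have e : (x * σ)⁻¹ * φ τ * (x * σ) = σ⁻¹ * (x⁻¹ * φ τ * x) * σ := by group
  rw [e]
  constructor
  · intro hm
    have := hN.conj_mem _ hm σ
    convert this using 1
    group
  · intro hm
    have := hN.conj_mem _ hm σ⁻¹
    rwa [inv_inv] at this

lemma conj_mem_of_normal (N : Subgroup G) [hN : N.Normal] (σ : G) :
    ∀ y ∈ N, σ⁻¹ * y * σ ∈ N := fun y hy => by
  have := hN.conj_mem y hy σ⁻¹
  rwa [inv_inv] at this

/-- **(c)** conjugation by `σ ∈ G` on `H²(N, J)`, `N ⊴ G`, moves the `x`-component to the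
`xσ`-component. -/
theorem sh_cjMap (N : Subgroup G) [hN : N.Normal] (x σ : G)
    (c : H2 (Rep.res N.subtype (Rep.coind φ A))) :
    sh φ A N x (cjMap (Rep.coind φ A) N N σ (conj_mem_of_normal N σ) c) =
      rsMap A (le_of_eq (twSub_mul_right_of_normal φ N x σ).symm) (sh φ A N (x * σ) c) := by
  induction c using H2_induction_on with
  | h f =>
    rw [cjMap_H2π, sh_H2π, sh_H2π, rsMap_H2π]
    apply H2π_congr
    intro τ₁ τ₂
    rw [shCocycle_apply, cjCocycle_apply, rsCocycle_apply, shCocycle_apply]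
    have key : ∀ τ : Mackey.twSub φ N x,
        cjHom N N σ (conj_mem_of_normal N σ) (Mackey.twHom φ N x τ) =
          Mackey.twHom φ N (x * σ)
            (Subgroup.inclusion (le_of_eq (twSub_mul_right_of_normal φ N x σ).symm) τ) := by
      intro τ
      apply Subtype.ext
      simp only [coe_cjHom, Mackey.coe_twHom, Subgroup.coe_inclusion]
      group
    rw [key τ₁, key τ₂]
    rfl

end Fermat.Agent.S55.DegSum22
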