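/-
S55 / 35-GEN second seat (helper22): **the degree formula (J1) and the `SumSystem` of a coinduced
module**, as pure group theory.
Mathlib + Idele73.Mackey (helper73) + CycloRecip37.DescendK (helper37: `SumSystem`) + DegSum22.

`φ : Γ →* G` (`G` finite: `Gal(Ω/ℚ)`; `Γ`: the local Galois group at `q`), `A : Rep k Γ` (the local
units), `J = Rep.coind φ A` (the `q`-component of the idele module of `Ω`).

A `LocInvSystem A T` is a family of additive maps `inv D : H²(D, A) →+ T`, `D ≤ Γ` (the local
invariants of the intermediate fields of `E/ℚ_q`), with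
 (res)  `inv D' (res c) = [D : D'] • inv D c` for `D' ≤ D`,
 (conj) `inv (σ D σ⁻¹) (σ_* c) = inv D c`.
For `H ≤ G` put `invJ H c = ∑_{x ∈ φ(Γ)\G/H} inv Γ_x (sh_x c)`, `Γ_x = {τ | x⁻¹ φ(τ) x ∈ H}`
(= the sum over the places `w | q` of `Ω^H` of the local invariants of the components of `c`).

* `invJ_eq_sum`  : `invJ` may be computed on any system of representatives `Mackey.IsRepr φ H R`;
* **`invJ_rsMap`** (J1) : `invJ H' (res^H_{H'} c) = [H : H'] • invJ H c`;
* `invJ_cjMap`   : for `N ⊴ G`, `σ ∈ G`: `invJ N (σ_* c) = invJ N c`;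
* **`sumSystem`** : `CycloRecip37.DescendK.SumSystem (Rep.coind φ A) T` with `S H f = invJ H [f]`.
-/
import Mathlib
import Fermat.Agent.S55.Idele73.Mackey
import Fermat.Agent.S55.CycloRecip37.DescendK
import Fermat.Agent.S55.DegSum22.Sh
import Fermat.Agent.S55.DegSum22.Count

set_option autoImplicit false

namespace Fermat.Agent.S55.DegSum22

open CategoryTheory groupCohomology Fermat.Agent.S55.Idele73

variable {k : Type} [CommRing k] {Γ G : Type} [Group Γ] [Group G] (φ : Γ →* G) {A : Rep.{0} k Γ}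

variable (A) in
/-- A system of local invariants on the subgroups of `Γ`. -/
structure LocInvSystem (T : Type*) [AddCommGroup T] where
  /-- the invariant map of the subgroup `D` -/
  inv : ∀ D : Subgroup Γ, H2 (Rep.res D.subtype A) →+ T
  /-- `inv ∘ res = degree • inv` -/
  res : ∀ (D' D : Subgroup Γ) (h : D' ≤ D) (c : H2 (Rep.res D.subtype A)),
    D'.relIndex D ≠ 0 → inv D' (rsMap A h c) = D'.relIndex D • inv D c
  /-- invariance under conjugation -/
  conj : ∀ (D' D : Subgroup Γ) (σ : Γ) (h : ∀ τ, τ ∈ D' ↔ σ⁻¹ * τ * σ ∈ D)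
    (c : H2 (Rep.res D.subtype A)),
    inv D' (cjMap A D' D σ (fun τ hτ => (h τ).1 hτ) c) = inv D c

variable {T : Type*} [AddCommGroup T] (I : LocInvSystem A T)

namespace LocInvSystem

/-- transport along an equality of subgroups. -/
lemma inv_congr {D' D : Subgroup Γ} (h : D' = D) (c : H2 (Rep.res D.subtype A)) :
    I.inv D' (rsMap A (le_of_eq h) c) = I.inv D c := by
  subst h
  rw [rsMap_self]

end LocInvSystem

/-- the local term at `x`: `inv Γ_x (sh_x c)`. -/
noncomputable def term (H : Subgroup G) (c : H2 (Rep.res H.subtype (Rep.coind φ A))) (x : G) : T :=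
  I.inv (Mackey.twSub φ H x) (sh φ A H x c)

lemma term_add (H : Subgroup G) (c c' : H2 (Rep.res H.subtype (Rep.coind φ A))) (x : G) :
    term φ I H (c + c') x = term φ I H c x + term φ I H c' x := by
  unfold term; rw [map_add, map_add]

theorem term_mul (H : Subgroup G) (c : H2 (Rep.res H.subtype (Rep.coind φ A))) (x : G) (σ : Γ)
    (h : H) : term φ I H c (φ σ * x * h) = term φ I H c x := by
  unfold term
  rw [sh_mul]
  exact I.conj _ _ σ (mem_twSub_mul_iff φ H x σ h) _

theorem term_of_inDC (H : Subgroup G) (c : H2 (Rep.res H.subtype (Rep.coind φ A))) {x g : G}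
    (hg : Mackey.InDC φ H x g) : term φ I H c g = term φ I H c x := by
  obtain ⟨τ, h, rfl⟩ := hg
  exact term_mul φ I H c x τ h

lemma index_twSub_ne_zero [Finite G] (H : Subgroup G) (x : G) :
    (Mackey.twSub φ H x).index ≠ 0 := by
  letI := actQ φ H
  rw [← stabilizer_actQ, MulAction.index_stabilizer]
  intro h0
  rw [Set.ncard_eq_zero (Set.toFinite _)] at h0
  exact Set.notMem_empty _ (h0 ▸ MulAction.mem_orbit_self ((x : G) : G ⧸ H))

lemma relIndex_twSub_ne_zero [Finite G] {H' H : Subgroup G} (h : H' ≤ H) (x : G) :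
    (Mackey.twSub φ H' x).relIndex (Mackey.twSub φ H x) ≠ 0 := by
  have := Subgroup.relIndex_mul_index (twSub_le φ h x)
  intro h0
  rw [h0, zero_mul] at this
  exact index_twSub_ne_zero φ H' x this.symm

theorem term_rsMap [Finite G] {H' H : Subgroup G} (h : H' ≤ H)
    (c : H2 (Rep.res H.subtype (Rep.coind φ A))) (x : G) :
    term φ I H' (rsMap (Rep.coind φ A) h c) x =
      (Mackey.twSub φ H' x).relIndex (Mackey.twSub φ H x) • term φ I H c x := by
  unfold term
  rw [sh_rsMap]
  exact I.res _ _ _ _ (relIndex_twSub_ne_zero φ h x)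

theorem term_cjMap (N : Subgroup G) [N.Normal] (σ : G)
    (c : H2 (Rep.res N.subtype (Rep.coind φ A))) (x : G) :
    term φ I N (cjMap (Rep.coind φ A) N N σ (conj_mem_of_normal N σ) c) x =
      term φ I N c (x * σ) := by
  unfold term
  rw [sh_cjMap]
  exact I.inv_congr (twSub_mul_right_of_normal φ N x σ).symm _

/-- a function on `G` which is constant on the double cosets `φ(Γ) x H` has the same sum over
any two systems of representatives. -/
lemma sum_eq_of_isRepr {H : Subgroup G} {R R' : Finset G} (hR : Mackey.IsRepr φ H R)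
    (hR' : Mackey.IsRepr φ H R') (t : G → T)
    (ht : ∀ x g, Mackey.InDC φ H x g → t g = t x) : ∑ x ∈ R, t x = ∑ x ∈ R', t x := by
  classical
  refine Finset.sum_bij (fun x _ => (hR'.1 x).choose) ?_ ?_ ?_ ?_
  · intro x _
    exact (hR'.1 x).choose_spec.1
  · intro x₁ h₁ x₂ h₂ he
    have e1 := (hR'.1 x₁).choose_spec.2
    have e2 := (hR'.1 x₂).choose_spec.2
    have he' : (hR'.1 x₁).choose = (hR'.1 x₂).choose := he
    rw [he'] at e1
    exact hR.2 x₁ h₁ x₂ h₂ (Mackey.inDC_trans φ H _ (Mackey.inDC_comm φ H _ e1) e2)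
  · intro x' hx'
    obtain ⟨x, hx, hxx'⟩ := hR.1 x'
    refine ⟨x, hx, ?_⟩
    have e := (hR'.1 x).choose_spec
    exact hR'.2 _ e.1 x' hx' (Mackey.inDC_trans φ H _ e.2 hxx')
  · intro x _
    exact ht _ _ (hR'.1 x).choose_spec.2

/-- **The global invariant of `H`** on `H²(H, J)`: the sum of the local terms over the double
cosets `φ(Γ) \ G / H`. -/
noncomputable def invJ [Finite G] (H : Subgroup G) :
    H2 (Rep.res H.subtype (Rep.coind φ A)) →+ T :=
  ∑ x ∈ (Mackey.exists_isRepr φ H).choose,
    (I.inv (Mackey.twSub φ H x)).comp (sh φ A H x).toAddMonoidHom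

lemma invJ_apply [Finite G] (H : Subgroup G) (c : H2 (Rep.res H.subtype (Rep.coind φ A))) :
    invJ φ I H c = ∑ x ∈ (Mackey.exists_isRepr φ H).choose, term φ I H c x := by
  unfold invJ term
  rw [AddMonoidHom.finsetSum_apply]
  rfl

/-- `invJ` may be computed on any system of representatives. -/
theorem invJ_eq_sum [Finite G] (H : Subgroup G) {R : Finset G} (hR : Mackey.IsRepr φ H R)
    (c : H2 (Rep.res H.subtype (Rep.coind φ A))) :
    invJ φ I H c = ∑ x ∈ R, term φ I H c x := by
  rw [invJ_apply]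
  exact sum_eq_of_isRepr φ (Mackey.exists_isRepr φ H).choose_spec hR _
    (fun x g hg => term_of_inDC φ I H c hg)

/-- **(J1) the degree formula**: `invJ H' (res c) = [H : H'] • invJ H c`. -/
theorem invJ_rsMap [Finite G] {H' H : Subgroup G} (h : H' ≤ H)
    (c : H2 (Rep.res H.subtype (Rep.coind φ A))) :
    invJ φ I H' (rsMap (Rep.coind φ A) h c) = H'.relIndex H • invJ φ I H c := by
  classical
  have hR := (Mackey.exists_isRepr φ H).choose_spec
  have hR' := (Mackey.exists_isRepr φ H').choose_spec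
  set R := (Mackey.exists_isRepr φ H).choose
  set R' := (Mackey.exists_isRepr φ H').choose
  rw [invJ_apply, invJ_apply]
  simp_rw [term_rsMap φ I h c]
  let cx : G → G := fun x' => (hR.1 x').choose
  have hcxR : ∀ x', cx x' ∈ R := fun x' => (hR.1 x').choose_spec.1
  have hcx : ∀ x', Mackey.InDC φ H (cx x') x' := fun x' => (hR.1 x').choose_spec.2
  rw [← Finset.sum_fiberwise_of_maps_to (s := R') (t := R) (g := cx) (fun x' _ => hcxR x'),
    Finset.smul_sum]
  apply Finset.sum_congr rfl
  intro x hx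
  have hfilter : R'.filter (fun x' => cx x' = x) =
      R'.filter (fun x' => Mackey.InDC φ H x x') := by
    apply Finset.filter_congr
    intro x' _
    constructor
    · intro e; rw [← e]; exact hcx x'
    · intro hx'
      exact hR.2 _ (hcxR x') x hx
        (Mackey.inDC_trans φ H _ (hcx x') (Mackey.inDC_comm φ H _ hx'))
  rw [hfilter]
  have hterm : ∀ x' ∈ R'.filter (fun x' => Mackey.InDC φ H x x'),
      (Mackey.twSub φ H' x').relIndex (Mackey.twSub φ H x') • term φ I H c x' =
        (Mackey.twSub φ H' x').relIndex (Mackey.twSub φ H x') • term φ I H c x := by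
    intro x' hx'
    rw [term_of_inDC φ I H c (Finset.mem_filter.1 hx').2]
  rw [Finset.sum_congr rfl hterm, ← Finset.sum_smul]
  congr 1
  convert sum_relIndex_twSub φ h hR' x using 2

/-- right translation by `σ` preserves systems of representatives of `φ(Γ) \ G / N`, `N ⊴ G`. -/
lemma isRepr_image_mul_right (N : Subgroup G) [hN : N.Normal] (σ : G) {R : Finset G}
    [DecidableEq G] (hR : Mackey.IsRepr φ N R) : Mackey.IsRepr φ N (R.image (· * σ)) := by
  constructor
  · intro g
    obtain ⟨x, hx, τ, n, e⟩ := hR.1 (g * σ⁻¹)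
    refine ⟨x * σ, Finset.mem_image_of_mem _ hx, τ, ⟨σ⁻¹ * n * σ, conj_mem_of_normal N σ _ n.2⟩, ?_⟩
    have : g = g * σ⁻¹ * σ := by group
    rw [this, e]
    group
  · intro y hy z hz hyz
    obtain ⟨x, hx, rfl⟩ := Finset.mem_image.1 hy
    obtain ⟨x', hx', rfl⟩ := Finset.mem_image.1 hz
    obtain ⟨τ, n, e⟩ := hyz
    have hxx' : Mackey.InDC φ N x x' := by
      refine ⟨τ, ⟨σ * n * σ⁻¹, hN.conj_mem _ n.2 σ⟩, ?_⟩
      have : x' = x' * σ * σ⁻¹ := by group
      rw [this, e]
      group
    rw [hR.2 x hx x' hx' hxx']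

/-- **conjugation invariance** of the global invariant of a normal subgroup. -/
theorem invJ_cjMap [Finite G] (N : Subgroup G) [N.Normal] (σ : G)
    (c : H2 (Rep.res N.subtype (Rep.coind φ A))) :
    invJ φ I N (cjMap (Rep.coind φ A) N N σ (conj_mem_of_normal N σ) c) = invJ φ I N c := by
  classical
  have hR := (Mackey.exists_isRepr φ N).choose_spec
  set R := (Mackey.exists_isRepr φ N).choose
  rw [invJ_apply, invJ_apply]
  simp_rw [term_cjMap φ I N σ c]
  have h1 : ∑ x ∈ R, term φ I N c (x * σ) = ∑ y ∈ R.image (· * σ), term φ I N c y := by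
    rw [Finset.sum_image]
    intro a _ b _ hab
    exact mul_right_cancel hab
  rw [h1]
  exact sum_eq_of_isRepr φ (isRepr_image_mul_right φ N σ hR) hR _
    (fun x g hg => term_of_inDC φ I N c hg)

section SumSystem

open Fermat.Agent.S55.CycloRecip37.DescendK Fermat.Agent.S55.GlobalInv91

variable [Finite G]

open Classical in
/-- the functional on 2-cochains: `invJ` of the class on cocycles, `0` elsewhere. -/
noncomputable def sumS (H : Subgroup G) (f : H × H → (Rep.coind φ A)) : T :=
  if hf : f ∈ cocycles₂ (Rep.res H.subtype (Rep.coind φ A)) then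
    invJ φ I H ((H2π (Rep.res H.subtype (Rep.coind φ A))).hom ⟨f, hf⟩) else 0

lemma sumS_of_mem (H : Subgroup G) (f : H × H → (Rep.coind φ A))
    (hf : f ∈ cocycles₂ (Rep.res H.subtype (Rep.coind φ A))) :
    sumS φ I H f = invJ φ I H ((H2π (Rep.res H.subtype (Rep.coind φ A))).hom ⟨f, hf⟩) := by
  unfold sumS
  rw [dif_pos hf]

/-- **The `SumSystem` of the coinduced module `J = coind φ A`** attached to a system of local
invariants. -/
noncomputable def sumSystem : SumSystem (Rep.coind φ A) T where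
  S := sumS φ I
  add H f g hf hg := by
    have hfg : f + g ∈ cocycles₂ (Rep.res H.subtype (Rep.coind φ A)) := Submodule.add_mem _ hf hg
    rw [sumS_of_mem φ I H f hf, sumS_of_mem φ I H g hg, sumS_of_mem φ I H _ hfg, ← map_add,
      ← map_add]
    rfl
  cob H f hf := by
    have hmem : f ∈ coboundaries₂ (Rep.res H.subtype (Rep.coind φ A)) :=
      (isCob₂_iff_mem _ _).1 hf
    have hcoc : f ∈ cocycles₂ (Rep.res H.subtype (Rep.coind φ A)) :=
      coboundaries₂_le_cocycles₂ _ hmem
    rw [sumS_of_mem φ I H f hcoc]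
    have : (H2π (Rep.res H.subtype (Rep.coind φ A))).hom ⟨f, hcoc⟩ = 0 := by
      erw [H2π_eq_zero_iff]
      exact hmem
    rw [this, map_zero]
  res H' H h f hf := by
    have e : resCochain (Rep.coind φ A) h f =
        (rsCocycle (Rep.coind φ A) h ⟨f, hf⟩ : H' × H' → (Rep.coind φ A)) := by
      funext p
      rfl
    have hmem : resCochain (Rep.coind φ A) h f ∈
        cocycles₂ (Rep.res H'.subtype (Rep.coind φ A)) := by
      rw [e]; exact (rsCocycle (Rep.coind φ A) h ⟨f, hf⟩).2
    rw [sumS_of_mem φ I H f hf, sumS_of_mem φ I H' _ hmem, ← invJ_rsMap φ I h, rsMap_H2π]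
    congr 2
  conj N _ σ f hf := by
    have e : conjCochain (Rep.coind φ A) N σ f =
        (cjCocycle (Rep.coind φ A) N N σ (conj_mem_of_normal N σ) ⟨f, hf⟩ :
          N × N → (Rep.coind φ A)) := by
      funext p
      rfl
    have hmem : conjCochain (Rep.coind φ A) N σ f ∈
        cocycles₂ (Rep.res N.subtype (Rep.coind φ A)) := by
      rw [e]; exact (cjCocycle (Rep.coind φ A) N N σ (conj_mem_of_normal N σ) ⟨f, hf⟩).2
    rw [sumS_of_mem φ I N f hf, sumS_of_mem φ I N _ hmem,
      ← invJ_cjMap φ I N σ ((H2π (Rep.res N.subtype (Rep.coind φ A))).hom ⟨f, hf⟩), cjMap_H2π]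
    congr 2

@[simp] lemma sumSystem_S (H : Subgroup G) (f : H × H → (Rep.coind φ A)) :
    (sumSystem φ I).S H f = sumS φ I H f := rfl

end SumSystem

end Fermat.Agent.S55.DegSum22
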