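/-
S55 / 35-GEN second seat (helper22): bridges between `DegSum22` (H²-level `invJ` of a coinduced
module), helper9's explicit Mackey–Shapiro (`Shapiro9.loc₂`, joint injectivity/surjectivity) and
`DegSum22.JPackage` (literal binders of helper91), and the abstract forms of (J3) and (J4).

* `sh_eq_loc₂`     : `sh φ A H x = (Shapiro9.loc₂ φ A H x).hom`;
* `toH2_sumSystem` : `JPackage.toH2 (sumSystem φ I) H = invJ φ I H`;
* `eq_zero_of_sh_eq_zero` : joint injectivity of the components (`φ` injective);
* **(J3)** `rsMap_eq_zero_of_dvd` : `n • c = 0`, every local degree `[Γ_{H,x} : Γ_{Z,x}]` divisible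
  by `n`, the local invariants injective on `n`-torsion `⟹ res^H_Z c = 0`;
* **(J4)** `exists_invJ_eq` : every value of a local invariant is a value of `invJ`
  (a class supported at one place).
-/
import Mathlib
import Fermat.Agent.S55.Shapiro9.Mackey2
import Fermat.Agent.S55.DegSum22.Main
import Fermat.Agent.S55.DegSum22.JPackage

set_option autoImplicit false

namespace Fermat.Agent.S55.DegSum22

open CategoryTheory groupCohomology Fermat.Agent.S55.Idele73

variable {k : Type} [CommRing k] {Γ G : Type} [Group Γ] [Group G] (φ : Γ →* G) {A : Rep.{0} k Γ}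

/-- `sh` is helper9's localisation `loc₂`. -/
theorem sh_eq_loc₂ (H : Subgroup G) (x : G) (c : H2 (Rep.res H.subtype (Rep.coind φ A))) :
    sh φ A H x c = (Shapiro9.loc₂ φ A H x).hom c := by
  induction c using H2_induction_on with
  | h f =>
    rw [sh_H2π]
    erw [Shapiro9.loc₂_H2π]
    apply H2π_congr
    intro τ₁ τ₂
    rfl

/-- joint injectivity of the components, in `DegSum22` notation. -/
theorem eq_zero_of_sh_eq_zero (hφ : Function.Injective φ) (H : Subgroup G) {R : Finset G}
    (hR : Mackey.IsRepr φ H R) (c : H2 (Rep.res H.subtype (Rep.coind φ A)))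
    (h : ∀ x ∈ R, sh φ A H x c = 0) : c = 0 :=
  Shapiro9.loc₂_jointly_injective φ A H hφ hR c (fun x hx => by
    rw [← sh_eq_loc₂]; exact h x hx)

variable {T : Type*} [AddCommGroup T] (I : LocInvSystem A T)

/-- the `H²`-level map of the `SumSystem` of `I` is `invJ`. -/
theorem toH2_sumSystem [Finite G] (H : Subgroup G)
    (c : H2 (Rep.res H.subtype (Rep.coind φ A))) :
    JPackage.toH2 (sumSystem φ I) H c = invJ φ I H c := by
  induction c using H2_induction_on with
  | h f =>
    erw [JPackage.toH2_H2π]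
    exact sumS_of_mem φ I H f.1 f.2

/-- **(J3), abstract.**  If `n • c = 0`, every local degree of `Z ≤ H` is divisible by `n` and the
local invariants are injective on `n`-torsion, then `c` dies on `Z`. -/
theorem rsMap_eq_zero_of_dvd [Finite G] (hφ : Function.Injective φ) {Z H : Subgroup G}
    (h : Z ≤ H) (n : ℕ) (c : H2 (Rep.res H.subtype (Rep.coind φ A))) (hc : n • c = 0)
    (hdeg : ∀ x : G, n ∣ (Mackey.twSub φ Z x).relIndex (Mackey.twSub φ H x))
    (hinj : ∀ (D : Subgroup Γ) (u : H2 (Rep.res D.subtype A)), n • u = 0 → I.inv D u = 0 → u = 0) :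
    rsMap (Rep.coind φ A) h c = 0 := by
  obtain ⟨R, hR⟩ := Mackey.exists_isRepr φ Z
  apply eq_zero_of_sh_eq_zero φ hφ Z hR
  intro x _
  apply hinj
  · rw [← map_nsmul, ← map_nsmul, hc, map_zero, map_zero]
  · have h1 := term_rsMap φ I h c x
    unfold term at h1
    rw [h1]
    obtain ⟨d, hd⟩ := hdeg x
    have h0 : n • (I.inv (Mackey.twSub φ H x)) (sh φ A H x c) = 0 := by
      rw [← map_nsmul, ← map_nsmul, hc, map_zero, map_zero]
    rw [hd, mul_comm, mul_smul, h0, smul_zero]

/-- **(J4), abstract.**  Every value of the local invariant at `x₀` is the value of `invJ` on a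
class whose other components vanish. -/
theorem exists_invJ_eq [Finite G] (hφ : Function.Injective φ) (H : Subgroup G) (x₀ : G)
    (u₀ : H2 (Rep.res (Mackey.twSub φ H x₀).subtype A)) :
    ∃ c : H2 (Rep.res H.subtype (Rep.coind φ A)),
      invJ φ I H c = I.inv (Mackey.twSub φ H x₀) u₀ ∧ sh φ A H x₀ c = u₀ ∧
        ∀ m : ℕ, m • u₀ = 0 → m • c = 0 := by
  classical
  -- a system of representatives containing `x₀`
  obtain ⟨R₀, hR₀⟩ := Mackey.exists_isRepr φ H
  obtain ⟨y₀, hy₀, hy₀x⟩ := hR₀.1 x₀
  set R : Finset G := insert x₀ (R₀.erase y₀) with hRdef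
  have hR : Mackey.IsRepr φ H R := by
    constructor
    · intro g
      obtain ⟨y, hy, hyg⟩ := hR₀.1 g
      by_cases hyy : y = y₀
      · refine ⟨x₀, Finset.mem_insert_self _ _, ?_⟩
        rw [hyy] at hyg
        exact Mackey.inDC_trans φ H _ (Mackey.inDC_comm φ H _ hy₀x) hyg
      · exact ⟨y, Finset.mem_insert_of_mem (Finset.mem_erase.2 ⟨hyy, hy⟩), hyg⟩
    · intro a ha b hb hab
      rcases Finset.mem_insert.1 ha with rfl | ha'
      · rcases Finset.mem_insert.1 hb with rfl | hb'
        · rfl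
        · exfalso
          have hb'' := Finset.mem_erase.1 hb'
          exact hb''.1 (hR₀.2 b hb''.2 y₀ hy₀
            (Mackey.inDC_comm φ H _ (Mackey.inDC_trans φ H _ hy₀x hab))).symm.symm
      · have ha'' := Finset.mem_erase.1 ha'
        rcases Finset.mem_insert.1 hb with rfl | hb'
        · exfalso
          exact ha''.1 (hR₀.2 a ha''.2 y₀ hy₀
            (Mackey.inDC_trans φ H _ hab (Mackey.inDC_comm φ H _ hy₀x)))
        · exact hR₀.2 a ha''.2 b (Finset.mem_erase.1 hb').2 hab
  have hx₀R : x₀ ∈ R := Finset.mem_insert_self _ _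
  obtain ⟨c, hc0, hc⟩ := Shapiro9.exists_loc₂_eq_single φ A H hφ hR ⟨x₀, hx₀R⟩ u₀
  have hsh0 : sh φ A H x₀ c = u₀ := by rw [sh_eq_loc₂]; exact hc0
  have hsh : ∀ x ∈ R, x ≠ x₀ → sh φ A H x c = 0 := by
    intro x hx hne
    rw [sh_eq_loc₂]
    exact hc ⟨x, hx⟩ (fun e => hne (congrArg Subtype.val e))
  refine ⟨c, ?_, hsh0, ?_⟩
  · rw [invJ_eq_sum φ I H hR, Finset.sum_eq_single x₀]
    · unfold term; rw [hsh0]
    · intro x hx hne
      unfold term; rw [hsh x hx hne, map_zero]
    · intro h; exact absurd hx₀R h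
  · intro m hm
    apply eq_zero_of_sh_eq_zero φ hφ H hR
    intro x hx
    rw [map_nsmul]
    by_cases hxx : x = x₀
    · subst hxx; rw [hsh0, hm]
    · rw [hsh x hx hxx, smul_zero]

end Fermat.Agent.S55.DegSum22
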