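/-
S55 / 35-GEN second seat (helper22): the dictionary between the two dialects of "system of local
invariants": helper37's global-cochain `CycloRecip37.GSys.Sys A T` (the shape requested from 22b:
`locSys q L : GSys.Sys (EUnits q L) QZ`) gives a `DegSum22.LocInvSystem A T` (`H²`-level maps
`inv D : H²(D, A) →+ T` with `res` and `conj`), hence `DegSum22.invJ`, `Shapiro9.JSplit` (J3)/(J4)
and `DegSum22.JPackage` apply to it.
-/
import Mathlib
import Fermat.Agent.S55.CycloRecip37.SysMore
import Fermat.Agent.S55.DegSum22.Main

set_option autoImplicit false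

namespace Fermat.Agent.S55.DegSum22

open CategoryTheory groupCohomology Fermat.Agent.S55.CycloRecip37
  Fermat.Agent.S55.CycloRecip37.GSys Fermat.Agent.S55.CycloRecip37.SysMore

variable {k : Type} [CommRing k] {Γ : Type} [Group Γ] {A : Rep.{0} k Γ}
  {T : Type*} [AddCommGroup T]

/-- **a global-cochain system of local invariants gives an `H²`-level one.** -/
noncomputable def LocInvSystem.ofGSys (I : GSys.Sys A T) : LocInvSystem A T where
  inv D := toH2 I D
  res D' D h c _ := by
    induction c using H2_induction_on with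
    | h f =>
      rw [rsMap_H2π]
      erw [toH2_H2π, toH2_H2π]
      rw [← I.res D' D h (ext0 D f.1) (isCocOn_ext0 D f.1 f.2)]
      apply I.congr
      intro g hg a ha
      rw [ext0_of_mem D' _ hg ha, ext0_of_mem D _ (h hg) (h ha)]
      rfl
  conj D' D σ h c := by
    induction c using H2_induction_on with
    | h f =>
      rw [cjMap_H2π]
      erw [toH2_H2π, toH2_H2π]
      rw [← I.conj D' D σ h (ext0 D f.1) (isCocOn_ext0 D f.1 f.2)]
      apply I.congr
      intro g hg a ha
      rw [ext0_of_mem D' _ hg ha, conjC_apply,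
        ext0_of_mem D _ ((h g).1 hg) ((h a).1 ha)]
      rfl

@[simp] lemma LocInvSystem.ofGSys_inv (I : GSys.Sys A T) (D : Subgroup Γ) :
    (LocInvSystem.ofGSys I).inv D = toH2 I D := rfl

lemma LocInvSystem.ofGSys_inv_H2π (I : GSys.Sys A T) (D : Subgroup Γ)
    (f : cocycles₂ (Rep.res D.subtype A)) :
    (LocInvSystem.ofGSys I).inv D ((H2π (Rep.res D.subtype A)).hom f) = I.S D (ext0 D f.1) :=
  toH2_H2π I D f

/-- **the two constructions agree**: helper37's coinduced system `CoindSys.coindSys I`, read on
`H²`, is `invJ` of the associated `H²`-level local system. -/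
theorem toH2_coindSys {G : Type} [Group G] [Finite G] [Finite Γ] (φ : Γ →* G) (I : GSys.Sys A T)
    (H : Subgroup G) (c : H2 (Rep.res H.subtype (Rep.coind φ A))) :
    toH2 (CoindSys.coindSys (j := φ) I) H c = invJ φ (LocInvSystem.ofGSys I) H c := by
  induction c using H2_induction_on with
  | h f =>
    erw [toH2_H2π]
    rw [invJ_apply, CoindSys.coindSys_S]
    unfold CoindSys.coindS CoindSys.reps
    apply Finset.sum_congr rfl
    intro x _
    unfold term CoindSys.term
    rw [sh_H2π, LocInvSystem.ofGSys_inv_H2π]
    apply I.congr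
    intro g hg a ha
    rw [ext0_of_mem _ _ hg ha, CoindSys.loc_apply,
      ext0_of_mem H _ (show x⁻¹ * φ g * x ∈ H from hg) (show x⁻¹ * φ a * x ∈ H from ha)]
    rfl

end Fermat.Agent.S55.DegSum22
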