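/-
S55 / 35-GEN second seat (helper22): the remaining `J`-side fields of helper91's `TowerLayerHyp` /
`exists_invCp_of_towerLayers`, in LAYER form, for `invJ := JPackage.invL Sys H V`.
Mathlib + DegSum22.JPackage + InfRes9.InfRes2 + GlobalInv91.{Gen, Carry}.

Setting of `JPackage`: `M : Rep k 𝔊`, `Sys : SumSystem M T`, `H ≤ 𝔊`, `J := Rep.res H.subtype M`,
`V ⊴ ↥H`, `U ≤ ↥H`.

* (X4) `invL_pushQ₂_carryH2` : the value of `invL` on the pushed carry class of a layer is the
  value of `Sys.S H` on the pushed carry cochain of `H` — so the field `recT` IS a sum formula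
  `S H (f ∘ carry …) = 0` of 34;
* (X2) `map_toSubQ_injective` : the inflation `H²(U ⧸ V, J^V) → H²(U, J)` is injective when
  `H¹(V, J) = 0` (`InfRes9.H2InfRes_mono` transported), hence
  `res₂_layer_eq_zero` : `res^H_U (infl y) = 0 → res^{H/V}_{U/V} y = 0` — the layer form `hsplit`
  of `beta_to` / `beta_from` from (J3).
-/
import Mathlib
import Fermat.Agent.S55.DegSum22.JPackage
import Fermat.Agent.S55.InfRes9.InfRes2
import Fermat.Agent.S55.GlobalInv91.Gen

set_option autoImplicit false

namespace Fermat.Agent.S55.DegSum22.JPackage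

open CategoryTheory groupCohomology Fermat.Agent.S55.CycloRecip37.DescendK
  Fermat.Agent.S55.GlobalInv91

universe u

variable {k 𝔊 : Type u} [CommRing k] [Group 𝔊] {M : Rep.{u, u, u} k 𝔊}
  {T : Type*} [AddCommGroup T] (Sys : SumSystem M T) (H : Subgroup 𝔊)
  (V : Subgroup ↥H) [V.Normal]

/-! ### (X4) carry classes -/

section carry

variable {E : Rep.{u, u, u} k 𝔊} (f : E ⟶ M) {n : ℕ} [NeZero n]

/-- **`recT` is a sum formula on carry cochains.** -/
theorem invL_pushQ₂_carryH2 (χ : ↥H ⧸ V →* Multiplicative (ZMod n))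
    (b : ((Rep.res H.subtype E).quotientToInvariants V).ρ.invariants) :
    invL Sys H V ((pushQ₂ ((Rep.resFunctor H.subtype).map f) V).hom
        (carryH2 ((Rep.res H.subtype E).quotientToInvariants V) χ b)) =
      Sys.S H (fun p => f.hom (carry (Rep.res H.subtype E) (χ.comp (QuotientGroup.mk' V))
        (((b : ((Rep.res H.subtype E).quotientToInvariants V).V) : E.V)) p)) := by
  rw [invL_apply, carryH2_apply]
  have e1 := H2π_comp_map_apply (MonoidHom.id (↥H ⧸ V))
    ((Rep.quotientToInvariantsFunctor k V).map ((Rep.resFunctor H.subtype).map f))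
    (carryCocycle ((Rep.res H.subtype E).quotientToInvariants V) χ b)
  have e2 := fun g : cocycles₂ ((Rep.res H.subtype M).quotientToInvariants V) =>
    H2π_comp_map_apply (QuotientGroup.mk' V)
      (Rep.ofHom <| (Rep.res H.subtype M).ρ.quotientToInvariants_lift V) g
  erw [e1, e2, toH2_H2π]
  congr 1

end carry

/-! ### (X2) injectivity of the inflation from a sub-layer -/

section infl

variable (U : Subgroup ↥H)

lemma mem_ker_toSubQ_iff (u : ↥U) : u ∈ (toSubQ H V U).ker ↔ (u : ↥H) ∈ V := by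
  rw [MonoidHom.mem_ker, ← Subtype.coe_inj]
  change ((QuotientGroup.mk' V) (u : ↥H) : ↥H ⧸ V) = 1 ↔ _
  rw [QuotientGroup.mk'_apply, QuotientGroup.eq_one_iff]

lemma toSubQ_surjective : Function.Surjective (toSubQ H V U) := by
  rintro ⟨_, ⟨h, hh, rfl⟩⟩
  exact ⟨⟨h, hh⟩, rfl⟩

/-- `U ⧸ (U ∩ V) ≃ U ⧸ V ⊆ H ⧸ V`. -/
noncomputable def eQ : ↥U ⧸ (toSubQ H V U).ker ≃* ↥(subQ U V) :=
  QuotientGroup.quotientKerEquivOfSurjective (toSubQ H V U) (toSubQ_surjective H V U)

lemma eQ_mk (u : ↥U) : eQ H V U (u : ↥U ⧸ (toSubQ H V U).ker) = toSubQ H V U u := rfl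

/-- `(J|_U)^{U ∩ V} ≃ J^V`. -/
def eInv (hVU : V ≤ U) :
    ((Rep.res U.subtype (Rep.res H.subtype M)).quotientToInvariants (toSubQ H V U).ker).V ≃ₗ[k]
      (Rep.res (subQ U V).subtype ((Rep.res H.subtype M).quotientToInvariants V)).V where
  toFun m := ⟨m.1, fun v =>
    m.2 ⟨⟨(v : ↥H), hVU v.2⟩, (mem_ker_toSubQ_iff H V U ⟨(v : ↥H), hVU v.2⟩).2 v.2⟩⟩
  map_add' _ _ := rfl
  map_smul' _ _ := rfl
  invFun x := ⟨x.1, fun s => x.2 ⟨((s : ↥U) : ↥H), (mem_ker_toSubQ_iff H V U s).1 s.2⟩⟩
  left_inv _ := rfl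
  right_inv _ := rfl

lemma eInv_comm (hVU : V ≤ U) (g : ↥U ⧸ (toSubQ H V U).ker) :
    (eInv H V U hVU).toLinearMap ∘ₗ
        ((Rep.res U.subtype (Rep.res H.subtype M)).quotientToInvariants (toSubQ H V U).ker).ρ g =
      (Rep.res (subQ U V).subtype ((Rep.res H.subtype M).quotientToInvariants V)).ρ
        (eQ H V U g) ∘ₗ (eInv H V U hVU).toLinearMap := by
  induction g using QuotientGroup.induction_on with
  | H u =>
    apply LinearMap.ext
    intro x
    exact Subtype.ext rfl

/-- the comparison isomorphism on `H²`. -/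
noncomputable def layerIso (hVU : V ≤ U) :
    H2 ((Rep.res U.subtype (Rep.res H.subtype M)).quotientToInvariants (toSubQ H V U).ker) ≅
      H2 (Rep.res (subQ U V).subtype ((Rep.res H.subtype M).quotientToInvariants V)) :=
  mapIso (eQ H V U) (eInv H V U hVU) (eInv_comm H V U hVU) 2

/-- the sub-layer inflation factors through the inflation of `U` modulo `U ∩ V`. -/
theorem map_toSubQ_eq (hVU : V ≤ U) :
    groupCohomology.map (toSubQ H V U) (inclL (M := M) H V U) 2 =
      (layerIso H V U hVU).inv ≫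
        infl₂ (Rep.res U.subtype (Rep.res H.subtype M)) (toSubQ H V U).ker := by
  unfold layerIso
  rw [mapIso_inv, ← map_comp]
  refine map_congr ?_ ?_ 2
  · ext u
    rfl
  · apply LinearMap.ext
    intro x
    rfl

/-- **the inflation `H²(U ⧸ V, J^V) → H²(U, J)` is injective when `H¹(U ∩ V, J) = 0`.** -/
theorem map_toSubQ_injective (hVU : V ≤ U)
    (h1 : Limits.IsZero (groupCohomology (Rep.res (toSubQ H V U).ker.subtype
      (Rep.res U.subtype (Rep.res H.subtype M))) 1)) :
    Function.Injective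
      (groupCohomology.map (toSubQ H V U) (inclL (M := M) H V U) 2).hom := by
  rw [map_toSubQ_eq H V U hVU]
  have hmono : Function.Injective
      (infl₂ (Rep.res U.subtype (Rep.res H.subtype M)) (toSubQ H V U).ker).hom :=
    (ModuleCat.mono_iff_injective
      (infl₂ (Rep.res U.subtype (Rep.res H.subtype M)) (toSubQ H V U).ker)).1
      (InfRes9.H2InfRes_mono (Rep.res U.subtype (Rep.res H.subtype M)) (toSubQ H V U).ker h1)
  have hiso : Function.Injective (layerIso (M := M) H V U hVU).inv.hom := by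
    intro a b hab
    have h := congrArg (layerIso (M := M) H V U hVU).hom.hom hab
    have e : ∀ z, (layerIso (M := M) H V U hVU).hom.hom
        ((layerIso (M := M) H V U hVU).inv.hom z) = z := fun z =>
      congrArg (fun φ => φ.hom z) (layerIso (M := M) H V U hVU).inv_hom_id
    rwa [e, e] at h
  intro a b hab
  exact hiso (hmono hab)

/-- **layer form of the splitting**: a class of the layer `H ⧸ V` whose inflation dies on `U`
dies on `U ⧸ V`. -/
theorem res₂_layer_eq_zero (hVU : V ≤ U)
    (h1 : Limits.IsZero (groupCohomology (Rep.res (toSubQ H V U).ker.subtype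
      (Rep.res U.subtype (Rep.res H.subtype M))) 1))
    (y : H2 ((Rep.res H.subtype M).quotientToInvariants V))
    (h : (res₂ (Rep.res H.subtype M) U).hom ((infl₂ (Rep.res H.subtype M) V).hom y) = 0) :
    (res₂ ((Rep.res H.subtype M).quotientToInvariants V) (subQ U V)).hom y = 0 := by
  apply map_toSubQ_injective H V U hVU h1
  rw [map_toSubQ_res₂, h, map_zero]

end infl

/-! ### Subgroups of the layer given upstairs -/

/-- restriction to equal subgroups vanishes simultaneously. -/
lemma res₂_eq_zero_of_eq {Γ : Type u} [Group Γ] (C : Rep.{u, u, u} k Γ) {Z₁ Z₂ : Subgroup Γ}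
    (h : Z₁ = Z₂) (y : H2 C) (hy : (res₂ C Z₁).hom y = 0) : (res₂ C Z₂).hom y = 0 := by
  subst h
  exact hy

/-- **the field `hsplit` for a subgroup `Zb` of the layer `H ⧸ V`** (e.g. `Zb = χ.ker`): it is
enough that the inflated class dies on the preimage of `Zb` in `H`. -/
theorem res₂_eq_zero_of_comap (Zb : Subgroup (↥H ⧸ V))
    (h1 : Limits.IsZero (groupCohomology
      (Rep.res (toSubQ H V (Zb.comap (QuotientGroup.mk' V))).ker.subtype
        (Rep.res (Zb.comap (QuotientGroup.mk' V)).subtype (Rep.res H.subtype M))) 1))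
    (y : H2 ((Rep.res H.subtype M).quotientToInvariants V))
    (h : (res₂ (Rep.res H.subtype M) (Zb.comap (QuotientGroup.mk' V))).hom
      ((infl₂ (Rep.res H.subtype M) V).hom y) = 0) :
    (res₂ ((Rep.res H.subtype M).quotientToInvariants V) Zb).hom y = 0 := by
  have hVU : V ≤ Zb.comap (QuotientGroup.mk' V) := by
    intro v hv
    rw [Subgroup.mem_comap, QuotientGroup.mk'_apply, (QuotientGroup.eq_one_iff v).2 hv]
    exact Zb.one_mem
  have h0 := res₂_layer_eq_zero H V (Zb.comap (QuotientGroup.mk' V)) hVU h1 y h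
  exact res₂_eq_zero_of_eq _
    (Subgroup.map_comap_eq_self_of_surjective (QuotientGroup.mk'_surjective V) Zb) y h0

end Fermat.Agent.S55.DegSum22.JPackage
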