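/-
S55 / 35-GEN second seat (helper22): the chain (J3) ⟹ literal layer-form `hsplit` of helper91's
`TowerLayerHyp.beta_to` / `beta_from` / `exists_invCp_of_towerLayers`, for one coinduced component.
DegSum22.{Bridge, JLayer}.

* `res₂_eq_zero_iff_rsMap` : for `U : Subgroup ↥H`, `res₂ (res H M) U y = 0 ↔ rsMap M _ y = 0`
  (helper91's restriction to a subgroup of `↥H` vs `DegSum22.rsMap` to `U.map H.subtype ≤ H`);
* `hsplit_layer` : `y ∈ H²(H ⧸ V, J^V)`, `n • y = 0`, `Zb ≤ H ⧸ V` with all local degrees of its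
  preimage divisible by `n`, local invariants injective on `n`-torsion, `H¹(V, J) = 0`
  `⟹ res₂ (J^V) Zb y = 0`.
-/
import Mathlib
import Fermat.Agent.S55.DegSum22.Bridge
import Fermat.Agent.S55.DegSum22.JLayer

set_option autoImplicit false

namespace Fermat.Agent.S55.DegSum22

open CategoryTheory groupCohomology Fermat.Agent.S55.Idele73 Fermat.Agent.S55.GlobalInv91

variable {k : Type} [CommRing k] {G : Type} [Group G] (M : Rep.{0} k G) (H : Subgroup G)

/-- helper91's restriction to a subgroup `U` of `↥H` vanishes iff `DegSum22.rsMap` to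
`U.map H.subtype ≤ H` does. -/
theorem res₂_eq_zero_iff_rsMap (U : Subgroup ↥H) (y : H2 (Rep.res H.subtype M)) :
    (res₂ (Rep.res H.subtype M) U).hom y = 0 ↔ rsMap M (JPackage.map_subtype_le H U) y = 0 := by
  induction y using H2_induction_on with
  | h f =>
    have e1 : (res₂ (Rep.res H.subtype M) U).hom ((H2π (Rep.res H.subtype M)).hom f) =
        (H2π (Rep.res U.subtype (Rep.res H.subtype M))).hom
          ((mapCocycles₂ U.subtype (𝟙 (Rep.res U.subtype (Rep.res H.subtype M)))).hom f) :=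
      H2π_comp_map_apply U.subtype (𝟙 (Rep.res U.subtype (Rep.res H.subtype M))) f
    erw [e1, rsMap_H2π, H2π_eq_zero_iff, H2π_eq_zero_iff]
    constructor
    · rintro ⟨b, hb⟩
      refine ⟨fun a => b (JPackage.down H U a), ?_⟩
      funext ⟨a₁, a₂⟩
      have := congrFun hb (JPackage.down H U a₁, JPackage.down H U a₂)
      rw [d₁₂_hom_apply] at this ⊢
      exact this
    · rintro ⟨b, hb⟩
      refine ⟨fun u => b ⟨((u : ↥H) : G), Subgroup.mem_map_of_mem _ u.2⟩, ?_⟩
      funext ⟨u₁, u₂⟩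
      have := congrFun hb (⟨((u₁ : ↥H) : G), Subgroup.mem_map_of_mem _ u₁.2⟩,
        ⟨((u₂ : ↥H) : G), Subgroup.mem_map_of_mem _ u₂.2⟩)
      rw [d₁₂_hom_apply] at this ⊢
      exact this

variable {Γ : Type} [Group Γ] (φ : Γ →* G) {A : Rep.{0} k Γ} {T : Type*} [AddCommGroup T]
  (I : LocInvSystem A T)

/-- **(J3) in the literal layer form** (one coinduced component `J = coind φ A`). -/
theorem hsplit_layer [Finite G] (hφ : Function.Injective φ) (H : Subgroup G)
    (V : Subgroup ↥H) [V.Normal] (Zb : Subgroup (↥H ⧸ V)) (n : ℕ)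
    (y : H2 ((Rep.res H.subtype (Rep.coind φ A)).quotientToInvariants V)) (hy : n • y = 0)
    (hdeg : ∀ x : G, n ∣ (Mackey.twSub φ ((Zb.comap (QuotientGroup.mk' V)).map H.subtype) x).relIndex
      (Mackey.twSub φ H x))
    (hinj : ∀ (D : Subgroup Γ) (u : H2 (Rep.res D.subtype A)), n • u = 0 → I.inv D u = 0 → u = 0)
    (h1 : Limits.IsZero (groupCohomology
      (Rep.res (JPackage.toSubQ H V (Zb.comap (QuotientGroup.mk' V))).ker.subtype
        (Rep.res (Zb.comap (QuotientGroup.mk' V)).subtype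
          (Rep.res H.subtype (Rep.coind φ A)))) 1)) :
    (res₂ ((Rep.res H.subtype (Rep.coind φ A)).quotientToInvariants V) Zb).hom y = 0 := by
  apply JPackage.res₂_eq_zero_of_comap H V Zb h1 y
  rw [res₂_eq_zero_iff_rsMap]
  apply rsMap_eq_zero_of_dvd φ I hφ _ n _ _ hdeg hinj
  rw [← map_nsmul, hy, map_zero]

end Fermat.Agent.S55.DegSum22
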