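/-
S55 / 35-GEN second seat (helper22): **the J-SPLIT (`hsplit`) for the D2 idele module
`J_S(L) × I^S(L)` at a finite level**, in the literal shape of helper91's `FinLayerHyp` consumers
(`SCFamily.exists_invCp.hsplit`, `FinLayerHyp.beta_to_desc / beta_from_desc`).

`L / ℚ` finite Galois, `H ≤ Gal(L/ℚ)` (`K = L^H`), `Z ≤ ↥H` (`Z = ker χ` for the tower character),
`y ∈ H²(H, J_S(L) × I^S(L))` with `n • y = 0`.  If all local degrees of `L^Z / K` at the primes of
`S` are divisible by `n` (`hdeg`, helper87 `LocalDeg`), and at the primes outside `S` every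
stabiliser element of `Z` is an `n`-th power of one of `H` (`hpow`, helper87 `exists_level_hpow`),
and the local invariants at `q ∈ S` are injective (`hinj`, helper93 `locSysE_inj`), then
`res^H_Z y = 0`.

* `isCob₂_of_isCobOn_ext0`, `ofGSys_inv_eq_zero` : injectivity in the `H²` dialect;
* `isCob_res_coind` : (J3) (`Bridge.rsMap_eq_zero_of_dvd`) in helper54's cochain dialect;
* `isCob_res_of_iso`, `isCob_res_Jq` : transported along `Idele73.Local.JqIso`;
* `isCob_res_JS`, `isCob_res_JIS` : assembled over `q ∈ S` and with the ideal part;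
* **`res₂_JIS_eq_zero`** : the literal statement.
-/
import Mathlib
import Fermat.Agent.S55.DegSum22.Bridge
import Fermat.Agent.S55.DegSum22.OfGSys
import Fermat.Agent.S55.DegSum22.SplitChain
import Fermat.Agent.S55.IdeleCoh54.IdealSys
import Fermat.Agent.S55.Idele73.Local
import Fermat.Agent.S55.IdeleVal44.Class

set_option autoImplicit false

namespace Fermat.Agent.S55.DegSum22.D2

open CategoryTheory groupCohomology Fermat.Agent.S55.Idele73
  Fermat.Agent.S55.GlobalInv91 Fermat.Agent.S55.CycloRecip37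
  Fermat.Agent.S55.CycloRecip37.GSys Fermat.Agent.S55.CycloRecip37.DescendK

section generic

variable {k : Type} [CommRing k] {G : Type} [Group G]

/-- converse of `GSys.isCobOn_ext0`. -/
lemma isCob₂_of_isCobOn_ext0 (C : Rep.{0} k G) (H : Subgroup G) (f : H × H → C)
    (h : IsCobOn C H (ext0 H f)) : IsCob₂ (resH C H) f := by
  obtain ⟨c, hc⟩ := h
  refine ⟨fun a => c a, fun g a => ?_⟩
  have := hc g g.2 a a.2
  rw [ext0_of_mem H f g.2 a.2] at this
  exact this

variable {T : Type*} [AddCommGroup T]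

/-- **(S1)** injectivity of a global-cochain system gives injectivity of the `H²`-level maps. -/
theorem ofGSys_inv_eq_zero {A : Rep.{0} k G} (I : GSys.Sys A T)
    (hinj : ∀ (D : Subgroup G) (f : G × G → A), IsCocOn A D f → I.S D f = 0 → IsCobOn A D f)
    (D : Subgroup G) (u : H2 (Rep.res D.subtype A))
    (hu : (LocInvSystem.ofGSys I).inv D u = 0) : u = 0 := by
  induction u using H2_induction_on with
  | h f =>
    rw [LocInvSystem.ofGSys_inv_H2π] at hu
    have h1 := hinj D _ (isCocOn_ext0 D f.1 f.2) hu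
    have h2 := isCob₂_of_isCobOn_ext0 A D f.1 h1
    rw [H2π_eq_zero_iff]
    exact (isCob₂_iff_mem _ _).1 h2

/-- morphisms of representations preserve coboundaries of subgroups. -/
lemma isCob₂_map {C C' : Rep.{0} k G} (φ : C ⟶ C') (M : Subgroup G) (c : M × M → C)
    (h : IsCob₂ (resH C M) c) : IsCob₂ (resH C' M) (fun p => φ.hom (c p)) := by
  obtain ⟨x, hx⟩ := h
  refine ⟨fun a => φ.hom (x a), fun g a => ?_⟩
  show (resH C' M).ρ g (φ.hom (x a)) - φ.hom (x (g * a)) + φ.hom (x g) = φ.hom (c (g, a))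
  rw [← hx g a, map_add, map_sub]
  congr 2
  exact (Rep.hom_comm_apply φ (g : G) (x a)).symm

/-- morphisms of representations preserve cocycles of subgroups. -/
lemma mem_cocycles₂_map {C C' : Rep.{0} k G} (φ : C ⟶ C') (M : Subgroup G) (c : M × M → C)
    (h : c ∈ cocycles₂ (resH C M)) : (fun p => φ.hom (c p)) ∈ cocycles₂ (resH C' M) := by
  rw [mem_cocycles₂_def] at h ⊢
  intro g a b
  have := congrArg φ.hom (h g a b)
  rw [map_sub, map_add, map_sub, map_zero] at this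
  rw [← this]
  congr 3
  exact (Rep.hom_comm_apply φ (g : G) (c (a, b))).symm

end generic

section coind

variable {k : Type} [CommRing k] {G : Type} [Group G] [Finite G] {Γ : Type} [Group Γ]
  (φ : Γ →* G) {A : Rep.{0} k Γ} {T : Type*} [AddCommGroup T] (I : GSys.Sys A T)

/-- **(J3) in the cochain dialect** (`Bridge.rsMap_eq_zero_of_dvd` for helper37's systems). -/
theorem isCob_res_coind (hφ : Function.Injective φ)
    (hinj : ∀ (D : Subgroup Γ) (f : Γ × Γ → A), IsCocOn A D f → I.S D f = 0 → IsCobOn A D f)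
    {M H : Subgroup G} (h : M ≤ H) (n : ℕ) {c : H × H → Rep.coind φ A}
    (hc : c ∈ cocycles₂ (resH (Rep.coind φ A) H))
    (hn : IsCob₂ (resH (Rep.coind φ A) H) (n • c))
    (hdeg : ∀ x : G, n ∣ (Mackey.twSub φ M x).relIndex (Mackey.twSub φ H x)) :
    IsCob₂ (resH (Rep.coind φ A) M) (resCochain (Rep.coind φ A) h c) := by
  set cls : H2 (Rep.res H.subtype (Rep.coind φ A)) :=
    (H2π (Rep.res H.subtype (Rep.coind φ A))).hom ⟨c, hc⟩ with hcls
  have hncls : n • cls = 0 := by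
    rw [hcls, ← map_nsmul, H2π_eq_zero_iff]
    exact (isCob₂_iff_mem _ _).1 hn
  have h0 := rsMap_eq_zero_of_dvd φ (LocInvSystem.ofGSys I) hφ h n cls hncls hdeg
    (fun D u _ hu => ofGSys_inv_eq_zero I hinj D u hu)
  rw [hcls, rsMap_H2π, H2π_eq_zero_iff] at h0
  exact (isCob₂_iff_mem _ _).2 h0

end coind

section iso

variable {k : Type} [CommRing k] {G : Type} [Group G]

/-- a splitting statement is transported along an isomorphism of representations. -/
theorem isCob_res_of_iso {C C' : Rep.{0} k G} (e : C ≅ C') {M H : Subgroup G} (h : M ≤ H) (n : ℕ)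
    (hC : ∀ c : H × H → C, c ∈ cocycles₂ (resH C H) → IsCob₂ (resH C H) (n • c) →
      IsCob₂ (resH C M) (resCochain C h c))
    {c : H × H → C'} (hc : c ∈ cocycles₂ (resH C' H)) (hn : IsCob₂ (resH C' H) (n • c)) :
    IsCob₂ (resH C' M) (resCochain C' h c) := by
  have h1 := hC (fun p => e.inv.hom (c p)) (mem_cocycles₂_map e.inv H c hc) (by
    have := isCob₂_map e.inv H (n • c) hn
    convert this using 1
    funext p
    show n • e.inv.hom (c p) = e.inv.hom (n • c p)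
    rw [map_nsmul])
  have h2 := isCob₂_map e.hom M _ h1
  convert h2 using 1
  funext p
  show c _ = e.hom.hom (e.inv.hom (c _))
  rw [Rep.hom_inv_apply]

end iso

section concrete

open Fermat.Agent.S55.Idele73.Basic Fermat.Agent.S55.Idele73.Local Fermat.Agent.S55.IdeleVal44
  Fermat.Agent.S55.IdeleCoh54.IdealSys

attribute [local instance] factPrimes44

variable (L : IntermediateField ℚ Qbar) [Normal ℚ L] [FiniteDimensional ℚ L]
  {T : Type*} [AddCommGroup T]

/-- **(S2)** (J3) for the `q`-component `J_q(L)` of the ideles, through `JqIso`. -/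
theorem isCob_res_Jq (q : ℕ) [Fact q.Prime] (I : GSys.Sys (EUnits q L) T)
    (hinj : ∀ (D : Subgroup (DE q L)) (f : DE q L × DE q L → EUnits q L),
      IsCocOn (EUnits q L) D f → I.S D f = 0 → IsCobOn (EUnits q L) D f)
    {M H : Subgroup (GalL L)} (h : M ≤ H) (n : ℕ) {c : H × H → Jq q L}
    (hc : c ∈ cocycles₂ (resH (Jq q L) H)) (hn : IsCob₂ (resH (Jq q L) H) (n • c))
    (hdeg : ∀ x : GalL L, n ∣ (Mackey.twSub (jE q L) M x).relIndex (Mackey.twSub (jE q L) H x)) :
    IsCob₂ (resH (Jq q L) M) (resCochain (Jq q L) h c) :=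
  isCob_res_of_iso (JqIso q L) h n
    (fun _ hc' hn' => isCob_res_coind (jE q L) I (jE_injective q L) hinj h n hc' hn' hdeg) hc hn

variable (S : Finset Nat.Primes)

/-- **(S3)** (J3) for the `S`-ideles `J_S(L) = ⨁_{q ∈ S} J_q(L)`. -/
theorem isCob_res_JS (I : ∀ q : InS S, GSys.Sys (EUnits q.1.1 L) T)
    (hinj : ∀ (q : InS S) (D : Subgroup (DE q.1.1 L))
      (f : DE q.1.1 L × DE q.1.1 L → EUnits q.1.1 L),
      IsCocOn (EUnits q.1.1 L) D f → (I q).S D f = 0 → IsCobOn (EUnits q.1.1 L) D f)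
    {M H : Subgroup (GalL L)} (h : M ≤ H) (n : ℕ) {c : H × H → JS L S}
    (hc : c ∈ cocycles₂ (resH (JS L S) H)) (hn : IsCob₂ (resH (JS L S) H) (n • c))
    (hdeg : ∀ (q : InS S) (x : GalL L),
      n ∣ (Mackey.twSub (jE q.1.1 L) M x).relIndex (Mackey.twSub (jE q.1.1 L) H x)) :
    IsCob₂ (resH (JS L S) M) (resCochain (JS L S) h c) := by
  refine isCob₂_ds (fun q : InS S => Jq q.1.1 L) M _ (fun q => ?_)
  set cq : H × H → Jq q.1.1 L := fun p => dsRep.toDS _ (c p) q with hcq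
  have hcqmem : cq ∈ cocycles₂ (resH (Jq q.1.1 L) H) := by
    rw [mem_cocycles₂_iff] at hc ⊢
    intro a b j
    have := congrArg (fun x => dsRep.toDS _ x q) (hc a b j)
    simpa [dsRep.toDS_add, dsRep.ρ_apply] using this
  have hmq : IsCob₂ (resH (Jq q.1.1 L) H) (n • cq) := by
    obtain ⟨x, hx⟩ := hn
    refine ⟨fun a => dsRep.toDS _ (x a) q, fun a b => ?_⟩
    have := congrArg (fun y => dsRep.toDS _ y q) (hx a b)
    have e : dsRep.toDS (fun q : InS S => Jq q.1.1 L) ((n • c) (a, b)) q = (n • cq) (a, b) := rfl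
    rw [← e, ← this]
    rfl
  exact isCob_res_Jq L q.1.1 (I q) (hinj q) h n hcqmem hmq (hdeg q)

omit [FiniteDimensional ℚ L] in
/-- coboundaries assemble over a binary product. -/
lemma isCob₂_prod {k G : Type} [CommRing k] [Group G] (A B : Rep.{0, 0, 0} k G) (M : Subgroup G)
    (c : M × M → prodRep A B)
    (h1 : IsCob₂ (resH A M) (fun p => prodRep.p1 A B (c p)))
    (h2 : IsCob₂ (resH B M) (fun p => prodRep.p2 A B (c p))) :
    IsCob₂ (resH (prodRep A B) M) c := by
  obtain ⟨x1, hx1⟩ := h1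
  obtain ⟨x2, hx2⟩ := h2
  refine ⟨fun a => prodRep.mk A B (x1 a) (x2 a), fun g a => ?_⟩
  apply prodRep.ext
  · exact hx1 g a
  · exact hx2 g a

/-- **(J3) for the ideal part, support form** (helper54's `res_isCob₂_of_nsmul_IS` with `hpow`
required only at the primes `ℓ ∉ S` where the cochain has a non-zero component). -/
theorem res_isCob₂_IS_of_support {H M : Subgroup (GalL L)} (h : M ≤ H) (m : ℕ)
    {c : H × H → IS L S} (hc : c ∈ cocycles₂ (resH (IS L S) H))
    (hm : IsCob₂ (resH (IS L S) H) (m • c))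
    (hpow : ∀ ℓ : OutS S, (∃ p : H × H, dsRep.toDS _ (c p) ℓ ≠ 0) →
      ∀ (s : M) (γ : GalL L), γ * s * γ⁻¹ ∈ (locHom ℓ.1.1 L).range →
      ∃ s' : H, γ * s' * γ⁻¹ ∈ (locHom ℓ.1.1 L).range ∧ (s : GalL L) = (s' : GalL L) ^ m) :
    IsCob₂ (resH (IS L S) M) (resCochain (IS L S) h c) := by
  refine isCob₂_ds (fun ℓ : OutS S => Zq L ℓ.1.1) M _ (fun ℓ => ?_)
  by_cases hsupp : ∃ p : H × H, dsRep.toDS _ (c p) ℓ ≠ 0
  · -- the `ℓ`-component
    set cℓ : H × H → Zq L ℓ.1.1 := fun p => dsRep.toDS _ (c p) ℓ with hcℓ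
    have hcℓmem : cℓ ∈ cocycles₂ (resH (Zq L ℓ.1.1) H) := by
      rw [mem_cocycles₂_iff] at hc ⊢
      intro a b j
      have := congrArg (fun x => dsRep.toDS _ x ℓ) (hc a b j)
      simpa [dsRep.toDS_add, dsRep.ρ_apply] using this
    have hmℓ : IsCob₂ (resH (Zq L ℓ.1.1) H) (m • cℓ) := by
      obtain ⟨x, hx⟩ := hm
      refine ⟨fun a => dsRep.toDS _ (x a) ℓ, fun a b => ?_⟩
      have := congrArg (fun y => dsRep.toDS _ y ℓ) (hx a b)
      have e : dsRep.toDS (fun ℓ : OutS S => Zq L ℓ.1.1) ((m • c) (a, b)) ℓ = (m • cℓ) (a, b) :=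
        rfl
      rw [← e, ← this]
      rfl
    exact Fermat.Agent.S55.IdeleCoh54.UnrLocal.res_isCob₂_of_nsmul (locHom ℓ.1.1 L) H h m
      hcℓmem hmℓ (hpow ℓ hsupp)
  · -- zero component
    have hsupp' : ∀ p : H × H, dsRep.toDS _ (c p) ℓ = 0 :=
      fun p => not_not.1 (fun hp => hsupp ⟨p, hp⟩)
    refine ⟨fun _ => 0, fun g a => ?_⟩
    show (resH (Zq L ℓ.1.1) M).ρ g 0 - 0 + 0 = dsRep.toDS _ (c _) ℓ
    rw [hsupp', map_zero, sub_zero, add_zero]

/-- **(S4), cochain form**: (J3) for the D2 idele module `J_S(L) × I^S(L)`; `hpow` is required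
only on the support of the ideal part of the cochain. -/
theorem isCob_res_JIS (I : ∀ q : InS S, GSys.Sys (EUnits q.1.1 L) T)
    (hinj : ∀ (q : InS S) (D : Subgroup (DE q.1.1 L))
      (f : DE q.1.1 L × DE q.1.1 L → EUnits q.1.1 L),
      IsCocOn (EUnits q.1.1 L) D f → (I q).S D f = 0 → IsCobOn (EUnits q.1.1 L) D f)
    {M H : Subgroup (GalL L)} (h : M ≤ H) (n : ℕ) {c : H × H → JIS L S}
    (hc : c ∈ cocycles₂ (resH (JIS L S) H)) (hn : IsCob₂ (resH (JIS L S) H) (n • c))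
    (hdeg : ∀ (q : InS S) (x : GalL L),
      n ∣ (Mackey.twSub (jE q.1.1 L) M x).relIndex (Mackey.twSub (jE q.1.1 L) H x))
    (hpow : ∀ ℓ : OutS S,
      (∃ p : H × H, dsRep.toDS _ (prodRep.p2 (JS L S) (IS L S) (c p)) ℓ ≠ 0) →
      ∀ (s : M) (γ : GalL L), γ * s * γ⁻¹ ∈ (locHom ℓ.1.1 L).range →
      ∃ s' : H, γ * s' * γ⁻¹ ∈ (locHom ℓ.1.1 L).range ∧ (s : GalL L) = (s' : GalL L) ^ n) :
    IsCob₂ (resH (JIS L S) M) (resCochain (JIS L S) h c) := by
  apply isCob₂_prod
  · exact isCob_res_JS L S I hinj h n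
      (mem_cocycles₂_map (prodRep.fst (JS L S) (IS L S)) H c hc)
      (isCob₂_map (prodRep.fst (JS L S) (IS L S)) H (n • c) hn) hdeg
  · exact res_isCob₂_IS_of_support L S h n
      (mem_cocycles₂_map (prodRep.snd (JS L S) (IS L S)) H c hc)
      (isCob₂_map (prodRep.snd (JS L S) (IS L S)) H (n • c) hn) hpow

/-- the (finite) set of primes `ℓ ∉ S` in the support of the ideal part of a cochain. -/
lemma finite_support_IS {H : Subgroup (GalL L)} (c : H × H → JIS L S) :
    {ℓ : OutS S | ∃ p : H × H,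
      dsRep.toDS _ (prodRep.p2 (JS L S) (IS L S) (c p)) ℓ ≠ 0}.Finite := by
  classical
  have hsub : {ℓ : OutS S | ∃ p : H × H,
      dsRep.toDS _ (prodRep.p2 (JS L S) (IS L S) (c p)) ℓ ≠ 0} ⊆
      ⋃ p : H × H, ((dsRep.toDS (fun ℓ : OutS S => Zq L ℓ.1.1)
        (prodRep.p2 (JS L S) (IS L S) (c p))).support : Set (OutS S)) := by
    rintro ℓ ⟨p, hp⟩
    refine Set.mem_iUnion.2 ⟨p, ?_⟩
    simp only [Finset.mem_coe, DFinsupp.mem_support_toFun]
    exact hp
  exact (Set.finite_iUnion (fun p => Finset.finite_toSet _)).subset hsub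

/-- **(S4), class of a given cocycle**: `hpow` is required only at the primes `ℓ ∉ S` in the
support of the ideal part of the chosen cocycle `f` (a finite set, `finite_support_IS`). -/
theorem res₂_H2π_JIS_eq_zero (I : ∀ q : InS S, GSys.Sys (EUnits q.1.1 L) T)
    (hinj : ∀ (q : InS S) (D : Subgroup (DE q.1.1 L))
      (f : DE q.1.1 L × DE q.1.1 L → EUnits q.1.1 L),
      IsCocOn (EUnits q.1.1 L) D f → (I q).S D f = 0 → IsCobOn (EUnits q.1.1 L) D f)
    (H : Subgroup (GalL L)) (Z : Subgroup ↥H) (n : ℕ)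
    (f : cocycles₂ (Rep.res H.subtype (JIS L S)))
    (hy : n • (H2π (Rep.res H.subtype (JIS L S))).hom f = 0)
    (hdeg : ∀ (q : InS S) (x : GalL L),
      n ∣ (Mackey.twSub (jE q.1.1 L) (Z.map H.subtype) x).relIndex
        (Mackey.twSub (jE q.1.1 L) H x))
    (hpow : ∀ ℓ : OutS S,
      (∃ p : H × H, dsRep.toDS _ (prodRep.p2 (JS L S) (IS L S) (f.1 p)) ℓ ≠ 0) →
      ∀ (s : ↥(Z.map H.subtype)) (γ : GalL L), γ * s * γ⁻¹ ∈ (locHom ℓ.1.1 L).range →
      ∃ s' : H, γ * s' * γ⁻¹ ∈ (locHom ℓ.1.1 L).range ∧ (s : GalL L) = (s' : GalL L) ^ n) :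
    (res₂ (Rep.res H.subtype (JIS L S)) Z).hom ((H2π (Rep.res H.subtype (JIS L S))).hom f) = 0 := by
  rw [res₂_eq_zero_iff_rsMap, rsMap_H2π, H2π_eq_zero_iff]
  have hn : IsCob₂ (resH (JIS L S) H) (n • f.1) := by
    rw [← map_nsmul, H2π_eq_zero_iff] at hy
    exact (isCob₂_iff_mem _ _).2 hy
  exact (isCob₂_iff_mem _ _).1
    (isCob_res_JIS L S I hinj (JPackage.map_subtype_le H Z) n f.2 hn hdeg hpow)

/-- **(S4) THE LITERAL J-SPLIT FOR THE D2 MODULE**: for every class `y` of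
`H²(H, J_S(L) × I^S(L))` killed by `n` there is a FINITE set `F` of primes outside `S` such that
`y` dies on every `Z ≤ ↥H` all of whose local degrees at the primes of `S` (`hdeg`) and of `F`
(`hpow`) are divisible by `n` — the local invariants at `q ∈ S` being injective. -/
theorem exists_finset_res₂_JIS_eq_zero (I : ∀ q : InS S, GSys.Sys (EUnits q.1.1 L) T)
    (hinj : ∀ (q : InS S) (D : Subgroup (DE q.1.1 L))
      (f : DE q.1.1 L × DE q.1.1 L → EUnits q.1.1 L),
      IsCocOn (EUnits q.1.1 L) D f → (I q).S D f = 0 → IsCobOn (EUnits q.1.1 L) D f)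
    (H : Subgroup (GalL L)) (n : ℕ)
    (y : H2 (Rep.res H.subtype (JIS L S))) (hy : n • y = 0) :
    ∃ F : Finset (OutS S), ∀ Z : Subgroup ↥H,
      (∀ (q : InS S) (x : GalL L),
        n ∣ (Mackey.twSub (jE q.1.1 L) (Z.map H.subtype) x).relIndex
          (Mackey.twSub (jE q.1.1 L) H x)) →
      (∀ ℓ ∈ F, ∀ (s : ↥(Z.map H.subtype)) (γ : GalL L),
        γ * s * γ⁻¹ ∈ (locHom ℓ.1.1 L).range →
        ∃ s' : H, γ * s' * γ⁻¹ ∈ (locHom ℓ.1.1 L).range ∧ (s : GalL L) = (s' : GalL L) ^ n) →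
      (res₂ (Rep.res H.subtype (JIS L S)) Z).hom y = 0 := by
  induction y using H2_induction_on with
  | h f =>
    exact ⟨(finite_support_IS L S f.1).toFinset, fun Z hdeg hpow =>
      res₂_H2π_JIS_eq_zero L S I hinj H Z n f hy hdeg
        (fun ℓ hℓ => hpow ℓ ((finite_support_IS L S f.1).mem_toFinset.2 hℓ))⟩

/-- the same with `hpow` at ALL primes outside `S` (usable when `I^S`-components play no role). -/
theorem res₂_JIS_eq_zero (I : ∀ q : InS S, GSys.Sys (EUnits q.1.1 L) T)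
    (hinj : ∀ (q : InS S) (D : Subgroup (DE q.1.1 L))
      (f : DE q.1.1 L × DE q.1.1 L → EUnits q.1.1 L),
      IsCocOn (EUnits q.1.1 L) D f → (I q).S D f = 0 → IsCobOn (EUnits q.1.1 L) D f)
    (H : Subgroup (GalL L)) (Z : Subgroup ↥H) (n : ℕ)
    (hdeg : ∀ (q : InS S) (x : GalL L),
      n ∣ (Mackey.twSub (jE q.1.1 L) (Z.map H.subtype) x).relIndex
        (Mackey.twSub (jE q.1.1 L) H x))
    (hpow : ∀ (ℓ : OutS S) (s : ↥(Z.map H.subtype)) (γ : GalL L),
      γ * s * γ⁻¹ ∈ (locHom ℓ.1.1 L).range →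
      ∃ s' : H, γ * s' * γ⁻¹ ∈ (locHom ℓ.1.1 L).range ∧ (s : GalL L) = (s' : GalL L) ^ n)
    (y : H2 (Rep.res H.subtype (JIS L S))) (hy : n • y = 0) :
    (res₂ (Rep.res H.subtype (JIS L S)) Z).hom y = 0 := by
  obtain ⟨F, hF⟩ := exists_finset_res₂_JIS_eq_zero L S I hinj H n y hy
  exact hF Z hdeg (fun ℓ _ => hpow ℓ)

end concrete

end Fermat.Agent.S55.DegSum22.D2
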