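/-
S55 / 35-GEN second seat (helper22): the field `fullDeg` of helper91's `TowerLayerHyp` in LAYER
form, from a class upstairs.  DegSum22.{JPackage, JLayer} + InfRes9.InfRes2.

Setting of `JPackage`: `M : Rep k 𝔊`, `Sys : SumSystem M T`, `H ≤ 𝔊`, `J := Rep.res H.subtype M`,
`V ⊴ ↥H`, `χ : ↥H ⧸ V →* ZMod n`, `invJ := JPackage.invL Sys H V`.

* `exists_layer_class` : a class `c̃ ∈ H²(H, J)` which dies on the preimage `Z` of `χ.ker` in `H`
  is `infl_V (infl_{χ.ker} c₀)` for some `c₀ ∈ H²((H ⧸ V) ⧸ χ.ker, (J^V)^{χ.ker})`, and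
  `invL (infl c₀) = toH2 Sys H c̃`  (two applications of inflation–restriction, `H¹ = 0`);
* `fullDeg_of_class` : hence `∃ c₀, addOrderOf (invL (infl c₀)) = addOrderOf (toH2 Sys H c̃)` —
  the field `fullDeg` once `c̃` is helper9's `Shapiro9.JSplit.exists_split_class` at a place of
  full local degree.
-/
import Mathlib
import Fermat.Agent.S55.DegSum22.JLayer

set_option autoImplicit false

namespace Fermat.Agent.S55.DegSum22.JPackage

open CategoryTheory groupCohomology Fermat.Agent.S55.CycloRecip37.DescendK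
  Fermat.Agent.S55.GlobalInv91

universe u

variable {k 𝔊 : Type u} [CommRing k] [Group 𝔊] {M : Rep.{u, u, u} k 𝔊}
  {T : Type*} [AddCommGroup T] (Sys : SumSystem M T) (H : Subgroup 𝔊)
  (V : Subgroup ↥H) [V.Normal]

/-- restriction to a smaller subgroup vanishes if restriction to a bigger one does. -/
theorem res₂_eq_zero_of_le {Γ : Type u} [Group Γ] (C : Rep.{u, u, u} k Γ) {Z₁ Z₂ : Subgroup Γ}
    (h : Z₁ ≤ Z₂) (y : H2 C) (hy : (res₂ C Z₂).hom y = 0) : (res₂ C Z₁).hom y = 0 := by
  induction y using H2_induction_on with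
  | h f =>
    have e1 := H2π_comp_map_apply Z₁.subtype (𝟙 (Rep.res Z₁.subtype C)) f
    have e2 := H2π_comp_map_apply Z₂.subtype (𝟙 (Rep.res Z₂.subtype C)) f
    erw [e2, H2π_eq_zero_iff] at hy
    erw [e1, H2π_eq_zero_iff]
    obtain ⟨b, hb⟩ := hy
    refine ⟨fun z => b (Subgroup.inclusion h z), ?_⟩
    funext ⟨z₁, z₂⟩
    have := congrFun hb (Subgroup.inclusion h z₁, Subgroup.inclusion h z₂)
    rw [d₁₂_hom_apply] at this ⊢
    exact this

/-- inflation–restriction exactness in elementwise form. -/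
theorem exists_infl₂_eq {Γ : Type u} [Group Γ] (C : Rep.{u, u, u} k Γ) (N : Subgroup Γ) [N.Normal]
    (h1 : Limits.IsZero (groupCohomology (Rep.res N.subtype C) 1)) (x : H2 C)
    (hx : (res₂ C N).hom x = 0) : ∃ y, (infl₂ C N).hom y = x := by
  have := InfRes9.H2InfRes_exact C N h1
  rw [ShortComplex.moduleCat_exact_iff_ker_sub_range] at this
  exact this (LinearMap.mem_ker.2 hx)

variable {n : ℕ} (χ : ↥H ⧸ V →* Multiplicative (ZMod n))

/-- **a class upstairs which dies on the preimage of `χ.ker` comes from the tower layer.** -/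
theorem exists_layer_class
    (h1V : Limits.IsZero (groupCohomology (Rep.res V.subtype (Rep.res H.subtype M)) 1))
    (h1Z : Limits.IsZero (groupCohomology (Rep.res χ.ker.subtype
      ((Rep.res H.subtype M).quotientToInvariants V)) 1))
    (h1' : Limits.IsZero (groupCohomology
      (Rep.res (toSubQ H V (χ.ker.comap (QuotientGroup.mk' V))).ker.subtype
        (Rep.res (χ.ker.comap (QuotientGroup.mk' V)).subtype (Rep.res H.subtype M))) 1))
    (c : H2 (Rep.res H.subtype M))
    (hres : (res₂ (Rep.res H.subtype M) (χ.ker.comap (QuotientGroup.mk' V))).hom c = 0) :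
    ∃ c₀ : H2 (((Rep.res H.subtype M).quotientToInvariants V).quotientToInvariants χ.ker),
      (infl₂ (Rep.res H.subtype M) V).hom
        ((infl₂ ((Rep.res H.subtype M).quotientToInvariants V) χ.ker).hom c₀) = c ∧
      invL Sys H V ((infl₂ ((Rep.res H.subtype M).quotientToInvariants V) χ.ker).hom c₀) =
        toH2 Sys H c := by
  have hVZ : V ≤ χ.ker.comap (QuotientGroup.mk' V) := by
    intro v hv
    rw [Subgroup.mem_comap, QuotientGroup.mk'_apply, (QuotientGroup.eq_one_iff v).2 hv]
    exact χ.ker.one_mem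
  -- descend to the layer `H ⧸ V`
  obtain ⟨c₁, hc₁⟩ := exists_infl₂_eq (Rep.res H.subtype M) V h1V c
    (res₂_eq_zero_of_le _ hVZ c hres)
  -- `c₁` dies on `χ.ker`
  have hc₁res : (res₂ ((Rep.res H.subtype M).quotientToInvariants V) χ.ker).hom c₁ = 0 :=
    res₂_eq_zero_of_comap H V χ.ker h1' c₁ (by rw [hc₁]; exact hres)
  -- descend to the tower layer
  obtain ⟨c₀, hc₀⟩ := exists_infl₂_eq ((Rep.res H.subtype M).quotientToInvariants V) χ.ker h1Z c₁
    hc₁res
  refine ⟨c₀, by rw [hc₀, hc₁], ?_⟩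
  rw [hc₀, invL_apply, hc₁]

/-- **the field `fullDeg`**, from a class upstairs of the right order. -/
theorem fullDeg_of_class
    (h1V : Limits.IsZero (groupCohomology (Rep.res V.subtype (Rep.res H.subtype M)) 1))
    (h1Z : Limits.IsZero (groupCohomology (Rep.res χ.ker.subtype
      ((Rep.res H.subtype M).quotientToInvariants V)) 1))
    (h1' : Limits.IsZero (groupCohomology
      (Rep.res (toSubQ H V (χ.ker.comap (QuotientGroup.mk' V))).ker.subtype
        (Rep.res (χ.ker.comap (QuotientGroup.mk' V)).subtype (Rep.res H.subtype M))) 1))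
    (c : H2 (Rep.res H.subtype M))
    (hres : (res₂ (Rep.res H.subtype M) (χ.ker.comap (QuotientGroup.mk' V))).hom c = 0)
    (N : ℕ) (hord : addOrderOf (toH2 Sys H c) = N) :
    ∃ c₀ : H2 (((Rep.res H.subtype M).quotientToInvariants V).quotientToInvariants χ.ker),
      addOrderOf (invL Sys H V
        ((infl₂ ((Rep.res H.subtype M).quotientToInvariants V) χ.ker).hom c₀)) = N := by
  obtain ⟨c₀, -, h⟩ := exists_layer_class Sys H V χ h1V h1Z h1' c hres
  exact ⟨c₀, by rw [h, hord]⟩

end Fermat.Agent.S55.DegSum22.JPackage
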